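/-
S55 sprint, block K10 existence mod p (helper1).
ABSTRACT setting for the existence theorem mod `p` (Kummer case): the standing hypotheses on the
idele group of a number field `K ⊇ μ_p` (local indices, `S`-unit indices, first inequality for the
explicit groups `nrmMin`), and first consequences:
local cyclicity statements, the product formula for the local indices, and
"an `S`-unit which is a local `p`-th power on `S` is a global `p`-th power".
-/
import Mathlib
import Fermat.Agent.S55lib.SecondIneq.NrmMin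
import Fermat.Agent.S55lib.SecondIneq.CoreGen

set_option autoImplicit false

namespace Fermat.Agent.S55lib.ExistP

open scoped Classical
open Fermat.Agent.S55lib.SecondIneq

variable {Kx : Type*} [CommGroup Kx] {ι : Type*} {Kv : ι → Type*} [∀ v, CommGroup (Kv v)]

/-- Standing hypotheses.  `Sp` = the places above `p`; `r` = number of complex places. -/
structure ExPData (U : ∀ v, Subgroup (Kv v)) (loc : ∀ v, Kx →* Kv v) (p : ℕ) (Sp : Finset ι)
    (r : ℕ) : Prop where
  hloc : ∀ a : Kx, {v | loc v a ∉ U v}.Finite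
  hinj : Function.Injective (MonoidHom.pi loc)
  h9 : ∀ v, ∀ x : Kv v, x ^ p ∈ U v → x ∈ U v
  hidx : ∀ v, v ∉ Sp → (powSubgroup (Kv v) p).index = p ^ 2
  hUcard : ∀ v, v ∉ Sp → (powSubgroup (Kv v) p).relIndex (U v) = p
  hprod : ∏ v ∈ Sp, (powSubgroup (Kv v) p).index = p ^ (2 * (Sp.card + r))
  hunits : ∀ S : Finset ι, Sp ⊆ S →
    ((unitsS U loc S).map (powMonoidHom p)).relIndex (unitsS U loc S) = p ^ (S.card + r)
  FI : ∀ a : Kx, a ∉ powSubgroup Kx p →
    ¬ idele U ≤ principal loc ⊔ localCond U (nrmMin U loc p Sp a)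

/-- The separation property for the set `S`: if `b` is not in `⟨a⟩ K^p`, some place outside `S`
sees `a` as a `p`-th power but not `b`. -/
def SEP (U : ∀ v, Subgroup (Kv v)) (loc : ∀ v, Kx →* Kv v) (p : ℕ) (S : Finset ι) : Prop :=
  ∀ a ∈ unitsS U loc S, a ∉ powSubgroup Kx p → ∀ b ∈ unitsS U loc S,
    (¬ ∃ (n : ℕ) (c : Kx), b = a ^ n * c ^ p) →
    ∃ v, v ∉ S ∧ loc v a ∈ powSubgroup (Kv v) p ∧ loc v b ∉ powSubgroup (Kv v) p

variable {U : ∀ v, Subgroup (Kv v)} {loc : ∀ v, Kx →* Kv v} {p : ℕ} {Sp : Finset ι} {r : ℕ}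

namespace ExPData

/-- the group of norms attached to `a` -/
noncomputable def normGroup (U : ∀ v, Subgroup (Kv v)) (loc : ∀ v, Kx →* Kv v) (p : ℕ) (Sp : Finset ι) (a : Kx) :
    Subgroup (∀ v, Kv v) :=
  principal loc ⊔ localCond U (nrmMin U loc p Sp a)

theorem normGroup_le_idele (D : ExPData U loc p Sp r) (a : Kx) :
    normGroup U loc p Sp a ≤ idele U :=
  sup_le (principal_le_idele D.hloc) inf_le_left

theorem mem_unitsS_of_pow_mem (D : ExPData U loc p Sp r) (S : Finset ι) {c : Kx}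
    (h : c ^ p ∈ unitsS U loc S) : c ∈ unitsS U loc S := by
  intro v hv
  apply D.h9 v
  rw [← map_pow]
  exact h v hv

/-- units mod `p`-th powers are cyclic of order `p` outside `Sp` -/
theorem hcyc [hp : Fact p.Prime] (D : ExPData U loc p Sp r) (v : ι) (hv : v ∉ Sp) (g : Kv v)
    (hg : g ∈ U v) (hgp : g ∉ powSubgroup (Kv v) p) (u : Kv v) (hu : u ∈ U v) :
    ∃ (n : ℕ) (c : Kv v), u = g ^ n * c ^ p := by
  set Q := U v ⧸ (powSubgroup (Kv v) p).subgroupOf (U v) with hQ
  have hcard : Nat.card Q = p := by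
    rw [← Subgroup.index_eq_card]; exact D.hUcard v hv
  have hgne : (QuotientGroup.mk ⟨g, hg⟩ : Q) ≠ 1 := by
    rw [Ne, QuotientGroup.eq_one_iff, Subgroup.mem_subgroupOf]
    exact hgp
  have hmem : (QuotientGroup.mk ⟨u, hu⟩ : Q) ∈ Subgroup.zpowers (QuotientGroup.mk ⟨g, hg⟩ : Q) := by
    rw [zpowers_eq_top_of_prime_card hcard hgne]; trivial
  haveI : Finite Q := Nat.finite_of_card_ne_zero (by rw [hcard]; exact hp.out.ne_zero)
  rw [← mem_powers_iff_mem_zpowers] at hmem
  obtain ⟨n, hn⟩ := hmem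
  have h1 : (QuotientGroup.mk (⟨g, hg⟩ ^ n) : Q) = QuotientGroup.mk ⟨u, hu⟩ := by
    rw [QuotientGroup.mk_pow]; exact hn
  rw [QuotientGroup.eq, Subgroup.mem_subgroupOf] at h1
  obtain ⟨c, hc'⟩ := mem_powSubgroup.mp h1
  refine ⟨n, c, ?_⟩
  simp only [Subgroup.coe_mul, Subgroup.coe_inv, Subgroup.coe_pow] at hc'
  rw [hc', mul_inv_cancel_left]

/-- `(K_v : U_v K_v^p) = p` outside `Sp` -/
theorem index_sup_pow [hp : Fact p.Prime] (D : ExPData U loc p Sp r) (v : ι) (hv : v ∉ Sp) :
    (U v ⊔ powSubgroup (Kv v) p).index = p := by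
  have h1 : (powSubgroup (Kv v) p).relIndex (U v ⊔ powSubgroup (Kv v) p) = p := by
    rw [Subgroup.relIndex_sup_right]; exact D.hUcard v hv
  have h2 := Subgroup.relIndex_mul_index (le_sup_right : powSubgroup (Kv v) p ≤ U v ⊔ powSubgroup (Kv v) p)
  rw [h1, D.hidx v hv, pow_two] at h2
  exact Nat.eq_of_mul_eq_mul_left hp.out.pos h2

/-- `K_v / U_v K_v^p` is cyclic of order `p` outside `Sp` -/
theorem hcyc' [hp : Fact p.Prime] (D : ExPData U loc p Sp r) (v : ι) (hv : v ∉ Sp) (g : Kv v)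
    (hg : g ∉ U v ⊔ powSubgroup (Kv v) p) (x : Kv v) :
    ∃ (n : ℕ), x / g ^ n ∈ U v ⊔ powSubgroup (Kv v) p := by
  set Q := Kv v ⧸ (U v ⊔ powSubgroup (Kv v) p) with hQ
  have hcard : Nat.card Q = p := by
    rw [← Subgroup.index_eq_card]; exact D.index_sup_pow v hv
  have hgne : (QuotientGroup.mk g : Q) ≠ 1 := by
    rw [Ne, QuotientGroup.eq_one_iff]
    exact hg
  have hmem : (QuotientGroup.mk x : Q) ∈ Subgroup.zpowers (QuotientGroup.mk g : Q) := by
    rw [zpowers_eq_top_of_prime_card hcard hgne]; trivial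
  haveI : Finite Q := Nat.finite_of_card_ne_zero (by rw [hcard]; exact hp.out.ne_zero)
  rw [← mem_powers_iff_mem_zpowers] at hmem
  obtain ⟨n, hn⟩ := hmem
  refine ⟨n, ?_⟩
  have h1 : (QuotientGroup.mk (g ^ n) : Q) = QuotientGroup.mk x := by
    rw [QuotientGroup.mk_pow]; exact hn
  rw [QuotientGroup.eq] at h1
  rw [div_eq_mul_inv, mul_comm]
  exact h1

/-- the product of the local indices over a set `S ⊇ Sp` -/
theorem prod_index (D : ExPData U loc p Sp r) (S : Finset ι) (hS : Sp ⊆ S) :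
    ∏ v ∈ S, (powSubgroup (Kv v) p).index = p ^ (2 * (S.card + r)) := by
  rw [← Finset.prod_sdiff hS, D.hprod]
  have h1 : ∏ v ∈ S \ Sp, (powSubgroup (Kv v) p).index = ∏ _v ∈ S \ Sp, p ^ 2 :=
    Finset.prod_congr rfl fun v hv => D.hidx v (Finset.mem_sdiff.mp hv).2
  rw [h1, Finset.prod_const, ← pow_mul, ← pow_add, Finset.card_sdiff_of_subset hS]
  congr 1
  have := Finset.card_le_card hS
  omega

/-- the index of the `p`-th powers in the `S`-units, intrinsic form -/
theorem index_pow_unitsS (D : ExPData U loc p Sp r) (S : Finset ι) (hS : Sp ⊆ S) :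
    (powSubgroup (unitsS U loc S) p).index = p ^ (S.card + r) := by
  rw [powSubgroup_subtype_index]; exact D.hunits S hS

/-- FI for a larger set of bad places -/
theorem FI_of_subset (D : ExPData U loc p Sp r) (S : Finset ι) (hS : Sp ⊆ S) (a : Kx)
    (ha : a ∉ powSubgroup Kx p) :
    ¬ idele U ≤ principal loc ⊔ localCond U (nrmMin U loc p S a) := by
  intro h
  apply D.FI a ha
  refine h.trans (sup_le_sup_left ?_ _)
  intro x hx
  rw [mem_localCond] at hx ⊢
  exact ⟨hx.1, fun v => nrmMin_mono U loc p hS a v (hx.2 v)⟩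

/-- **T1**: a global element which is a `p`-th power at all places of `S` and a unit outside `S` is
a `p`-th power. -/
theorem mem_pow_of_local (D : ExPData U loc p Sp r) (S : Finset ι) (hS : Sp ⊆ S)
    (h4 : idele U ≤ principal loc ⊔ ideleS U S) (a : Kx)
    (h1 : ∀ v ∈ S, loc v a ∈ powSubgroup (Kv v) p) (h2 : ∀ v, v ∉ S → loc v a ∈ U v) :
    a ∈ powSubgroup Kx p := by
  refine key_lemma U loc D.hloc p S ∅ (Finset.disjoint_empty_right S) (nrmMin U loc p S)
    (nrmMin_eq_top U loc p S) (pow_le_nrmMin U loc p S)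
    (fun a v hv ha => units_le_nrmMin U loc p S a v hv (le_sup_left (a := U v) ha))
    (D.FI_of_subset S hS) h4 ?_ a h1 (fun v hv _ => h2 v hv)
  intro y _
  exact ⟨1, Subgroup.one_mem _, fun v hv => absurd hv (Finset.notMem_empty v)⟩

/-- the `S`-units which are local `p`-th powers on `S` are the `p`-th powers of `S`-units -/
theorem unitsCond_pow_eq (D : ExPData U loc p Sp r) (S : Finset ι) (hS : Sp ⊆ S)
    (h4 : idele U ≤ principal loc ⊔ ideleS U S) :
    unitsCond U loc S S (fun v => powSubgroup (Kv v) p) =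
      (unitsS U loc S).map (powMonoidHom p) := by
  ext a
  rw [mem_unitsCond, Subgroup.mem_map]
  constructor
  · rintro ⟨h1, h2⟩
    obtain ⟨c, rfl⟩ := mem_powSubgroup.mp (D.mem_pow_of_local S hS h4 a h2 h1)
    exact ⟨c, D.mem_unitsS_of_pow_mem S h1, rfl⟩
  · rintro ⟨c, hc, rfl⟩
    refine ⟨Subgroup.pow_mem _ hc p, fun v _ => ?_⟩
    rw [powMonoidHom_apply, map_pow]
    exact mem_powSubgroup.mpr ⟨_, rfl⟩

/-- **T2**: `(J : K^× B_S) = p ^ (|S| + r)`, `B_S = ∏_{v ∈ S} K_v^p × ∏_{v ∉ S} U_v`. -/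
theorem relIndex_condS_sup_principal [hp : Fact p.Prime] (D : ExPData U loc p Sp r) (S : Finset ι)
    (hS : Sp ⊆ S) (h4 : idele U ≤ principal loc ⊔ ideleS U S) :
    (condS U S S (fun v => powSubgroup (Kv v) p) ⊔ principal loc).relIndex (idele U) =
      p ^ (S.card + r) := by
  have h := index_condS_sup_principal U loc D.hloc D.hinj S S (Finset.Subset.refl S)
    (by rwa [sup_comm] at h4 ⊢) (fun v => powSubgroup (Kv v) p)
  rw [D.unitsCond_pow_eq S hS h4, D.hunits S hS, D.prod_index S hS, two_mul,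
    pow_add p (S.card + r) (S.card + r)] at h
  exact Nat.eq_of_mul_eq_mul_right (pow_pos hp.out.pos _) h

end ExPData

end Fermat.Agent.S55lib.ExistP
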