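/-
S55 sprint, block K10 existence mod p (helper1).
For an `S`-unit `a ∉ K^p`: the auxiliary set `T` (`|T| = |S| + r - 1`, `a` is a local `p`-th power on
`T`, the `S`-units surject onto `∏_{v ∈ T} U_v / U_v^p`), and the description of the norm group
`N_a = K^× · {x ∈ J_{S ∪ T} | x_v ∈ K_v^p ∀ v ∈ S}`, of index exactly `p` in the ideles.
-/
import Mathlib
import Fermat.Agent.S55lib.ExistP.Setup

set_option autoImplicit false

namespace Fermat.Agent.S55lib.ExistP

open scoped Classical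
open Fermat.Agent.S55lib.SecondIneq

variable {Kx : Type*} [CommGroup Kx] {ι : Type*} {Kv : ι → Type*} [∀ v, CommGroup (Kv v)]
variable {U : ∀ v, Subgroup (Kv v)} {loc : ∀ v, Kx →* Kv v} {p : ℕ} {Sp : Finset ι} {r : ℕ}

/-- the properties of an auxiliary set `T` for `(S, a)` -/
structure IsAuxSet (U : ∀ v, Subgroup (Kv v)) (loc : ∀ v, Kx →* Kv v) (p : ℕ) (r : ℕ)
    (S : Finset ι) (a : Kx) (T : Finset ι) : Prop where
  disj : Disjoint S T
  card : T.card + 1 = S.card + r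
  pow : ∀ v ∈ T, loc v a ∈ powSubgroup (Kv v) p
  surj : ∀ y : ∀ v, Kv v, (∀ v ∈ T, y v ∈ U v) →
    ∃ u ∈ unitsS U loc S, ∀ v ∈ T, y v / loc v u ∈ powSubgroup (Kv v) p

namespace ExPData

/-- existence of the auxiliary set -/
theorem exists_auxSet [hp : Fact p.Prime] (D : ExPData U loc p Sp r) (S : Finset ι) (hS : Sp ⊆ S)
    (hSEP : SEP U loc p S) (a : Kx) (haS : a ∈ unitsS U loc S) (ha' : a ∉ powSubgroup Kx p) :
    ∃ T : Finset ι, IsAuxSet U loc p r S a T := by
  set W := unitsS U loc S with hW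
  have hidx : (powSubgroup W p).index = p ^ (S.card + r) := D.index_pow_unitsS S hS
  have hCcard : ∀ v : {v : ι // v ∉ S},
      Nat.card (U v.1 ⧸ (powSubgroup (Kv v.1) p).subgroupOf (U v.1)) = p := by
    intro v
    rw [← Subgroup.index_eq_card]; exact D.hUcard v.1 (fun h => v.2 (hS h))
  have haW : (⟨a, haS⟩ : W) ∉ powSubgroup W p := by
    intro h
    obtain ⟨y, hy⟩ := mem_powSubgroup.mp h
    apply ha'
    exact mem_powSubgroup.mpr ⟨y.1, by simpa using congrArg Subtype.val hy⟩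
  have hsep : ∀ b : W, (¬ ∃ (n : ℕ) (c : W), b = ⟨a, haS⟩ ^ n * c ^ p) →
      ∃ v, unitChar U loc S p v ⟨a, haS⟩ = 1 ∧ unitChar U loc S p v b ≠ 1 := by
    intro b hb
    have hb' : ¬ ∃ (n : ℕ) (c : Kx), b.1 = a ^ n * c ^ p := by
      rintro ⟨n, c, hnc⟩
      apply hb
      have hcW : c ∈ W := by
        apply D.mem_unitsS_of_pow_mem S
        have : c ^ p = b.1 * (a ^ n)⁻¹ := by rw [hnc]; simp
        rw [this]
        exact Subgroup.mul_mem _ b.2 (Subgroup.inv_mem _ (Subgroup.pow_mem _ haS _))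
      exact ⟨n, ⟨c, hcW⟩, Subtype.ext (by simpa using hnc)⟩
    obtain ⟨v, hvS, hva, hvb⟩ := hSEP a haS ha' b.1 b.2 hb'
    refine ⟨⟨v, hvS⟩, ?_, ?_⟩
    · rw [unitChar_eq_one_iff]; exact hva
    · rw [Ne, unitChar_eq_one_iff]; exact hvb
  obtain ⟨T₀, hT₀card, hT₀a, hT₀surj⟩ :=
    exists_aux_places p (S.card + r) hidx hCcard (unitChar U loc S p) ⟨a, haS⟩ haW hsep
  set T : Finset ι := T₀.map (Function.Embedding.subtype _) with hT
  have hTcard : T.card + 1 = S.card + r := by rw [hT, Finset.card_map]; exact hT₀card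
  have hTmem : ∀ v, v ∈ T ↔ ∃ h : v ∉ S, (⟨v, h⟩ : {v : ι // v ∉ S}) ∈ T₀ := by
    intro v
    rw [hT, Finset.mem_map]
    constructor
    · rintro ⟨w, hw, rfl⟩
      exact ⟨w.2, hw⟩
    · rintro ⟨h, hw⟩
      exact ⟨⟨v, h⟩, hw, rfl⟩
  refine ⟨T, ?_, hTcard, ?_, ?_⟩
  · rw [Finset.disjoint_left]
    intro v hvS hvT
    obtain ⟨h, -⟩ := (hTmem v).mp hvT
    exact h hvS
  · intro v hv
    obtain ⟨h, hw⟩ := (hTmem v).mp hv
    have := hT₀a ⟨v, h⟩ hw
    rwa [unitChar_eq_one_iff] at this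
  · intro y hy
    obtain ⟨w, hw⟩ := hT₀surj (fun v => if h : v.1 ∈ T then QuotientGroup.mk ⟨y v.1, hy v.1 h⟩ else 1)
    refine ⟨w.1, w.2, fun v hv => ?_⟩
    obtain ⟨h, hvT₀⟩ := (hTmem v).mp hv
    have h1 := hw ⟨v, h⟩ hvT₀
    simp only [hv, dif_pos] at h1
    rw [unitChar, MonoidHom.comp_apply, QuotientGroup.mk'_apply] at h1
    have h2 := QuotientGroup.eq.mp h1
    rw [Subgroup.mem_subgroupOf] at h2
    simp only [MonoidHom.coe_mk, OneHom.coe_mk, Subgroup.coe_mul, Subgroup.coe_inv] at h2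
    have h4' : y v / loc v w.1 = ((loc v w.1)⁻¹ * y v)⁻¹⁻¹ := by
      rw [inv_inv, div_eq_mul_inv, mul_comm]
    rw [h4', inv_inv]
    exact h2

/-- the key lemma for an auxiliary set, also for enlargements of it -/
theorem mem_pow_of_auxSet (D : ExPData U loc p Sp r) (S : Finset ι) (hS : Sp ⊆ S)
    (h4 : idele U ≤ principal loc ⊔ ideleS U S) (T : Finset ι) (hST : Disjoint S T)
    (hsurj : ∀ y : ∀ v, Kv v, (∀ v ∈ T, y v ∈ U v) →
      ∃ u ∈ unitsS U loc S, ∀ v ∈ T, y v / loc v u ∈ powSubgroup (Kv v) p)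
    (c : Kx) (h1 : ∀ v ∈ S, loc v c ∈ powSubgroup (Kv v) p)
    (h2 : ∀ v, v ∉ S → v ∉ T → loc v c ∈ U v) : c ∈ powSubgroup Kx p :=
  key_lemma U loc D.hloc p S T hST (nrmMin U loc p S)
    (nrmMin_eq_top U loc p S) (pow_le_nrmMin U loc p S)
    (fun a v hv ha => units_le_nrmMin U loc p S a v hv (le_sup_left (a := U v) ha))
    (D.FI_of_subset S hS) h4 hsurj c h1 h2

/-- `B_{S,T} ⊆` the local norms -/
theorem condS_le_localCond (S : Finset ι) (hS : Sp ⊆ S) (a : Kx) (haS : a ∈ unitsS U loc S)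
    (T : Finset ι) (hTa : ∀ v ∈ T, loc v a ∈ powSubgroup (Kv v) p) :
    condS U (S ∪ T) S (fun v => powSubgroup (Kv v) p) ≤ localCond U (nrmMin U loc p Sp a) := by
  intro x hx
  rw [mem_localCond]
  refine ⟨ideleS_le_idele U _ (condS_le _ _ _ _ hx), fun v => ?_⟩
  by_cases hvS : v ∈ S
  · exact pow_le_nrmMin U loc p Sp a v (hx.2 v hvS)
  · by_cases hvT : v ∈ T
    · rw [nrmMin_eq_top U loc p Sp a v (hTa v hvT)]; trivial
    · refine units_le_nrmMin U loc p Sp a v (fun h => hvS (hS h))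
        (le_sup_left (a := U v) (haS v hvS)) (hx.1 v ?_)
      simp [hvS, hvT]

/-- **T3**: the norm group of `a` is `K^× B_{S,T}` and has index `p`. -/
theorem normGroup_eq [hp : Fact p.Prime] (D : ExPData U loc p Sp r) (S : Finset ι) (hS : Sp ⊆ S)
    (h4 : idele U ≤ principal loc ⊔ ideleS U S) (a : Kx) (haS : a ∈ unitsS U loc S)
    (ha' : a ∉ powSubgroup Kx p) (T : Finset ι) (hT : IsAuxSet U loc p r S a T) :
    normGroup U loc p Sp a = condS U (S ∪ T) S (fun v => powSubgroup (Kv v) p) ⊔ principal loc ∧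
      (normGroup U loc p Sp a).relIndex (idele U) = p := by
  set B := condS U (S ∪ T) S (fun v => powSubgroup (Kv v) p) with hB
  have hs1 : 1 ≤ S.card + r := by have := hT.card; omega
  have hidx : (B ⊔ principal loc).relIndex (idele U) = p := by
    refine core_index_eq U loc D.hloc D.hinj p (S.card + r) hp.out.pos hs1 S T h4
      (D.prod_index S hS) ?_ (D.mem_pow_of_auxSet S hS h4 T hT.disj hT.surj) D.h9
    rw [D.hunits (S ∪ T) (hS.trans Finset.subset_union_left), Finset.card_union_of_disjoint hT.disj]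
    congr 1
    have := hT.card
    omega
  have hle : B ⊔ principal loc ≤ normGroup U loc p Sp a := by
    rw [normGroup, sup_comm]
    exact sup_le_sup_left (condS_le_localCond S hS a haS T hT.pow) _
  have hNJ := D.normGroup_le_idele a
  have hmul := Subgroup.relIndex_mul_relIndex _ _ _ hle hNJ
  rw [hidx] at hmul
  have hne : (normGroup U loc p Sp a).relIndex (idele U) ≠ 1 := by
    intro h1
    exact D.FI a ha' (Subgroup.relIndex_eq_one.mp h1)
  have hdvd : (normGroup U loc p Sp a).relIndex (idele U) ∣ p := ⟨_, by rw [mul_comm]; exact hmul.symm⟩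
  have heq : (normGroup U loc p Sp a).relIndex (idele U) = p :=
    ((Nat.dvd_prime hp.out).mp hdvd).resolve_left hne
  refine ⟨?_, heq⟩
  rw [heq] at hmul
  have h1 : (B ⊔ principal loc).relIndex (normGroup U loc p Sp a) = 1 := by
    have := hp.out.pos
    exact Nat.eq_of_mul_eq_mul_right this (by rw [hmul, one_mul])
  exact le_antisymm (Subgroup.relIndex_eq_one.mp h1) hle

end ExPData

end Fermat.Agent.S55lib.ExistP
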