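/-
S55 sprint, block K10 existence mod p (helper1).
**T4**: the map `a ↦ N_a` is injective on lines of `E_S / E_S^p`:
if `N_a ≤ N_b` for `S`-units `a, b ∉ K^p`, then `b ∈ ⟨a⟩ K^p`.
-/
import Mathlib
import Fermat.Agent.S55lib.ExistP.AuxSet

set_option autoImplicit false

namespace Fermat.Agent.S55lib.ExistP

open scoped Classical
open Fermat.Agent.S55lib.SecondIneq

variable {Kx : Type*} [CommGroup Kx] {ι : Type*} {Kv : ι → Type*} [∀ v, CommGroup (Kv v)]
variable {U : ∀ v, Subgroup (Kv v)} {loc : ∀ v, Kx →* Kv v} {p : ℕ} {Sp : Finset ι} {r : ℕ}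

/-- an idele supported at one place -/
theorem mulSingle_mem_idele (U : ∀ v, Subgroup (Kv v)) (v : ι) (x : Kv v) :
    Pi.mulSingle v x ∈ idele U := by
  rw [mem_idele]
  refine (Set.finite_singleton v).subset ?_
  intro w hw
  by_contra hne
  apply hw
  rw [Pi.mulSingle_eq_of_ne hne]
  exact (U w).one_mem

theorem mulSingle_mem_localCond (U N : ∀ v, Subgroup (Kv v)) (v : ι) (x : Kv v) (hx : x ∈ N v) :
    Pi.mulSingle v x ∈ localCond U N := by
  rw [mem_localCond]
  refine ⟨mulSingle_mem_idele U v x, fun w => ?_⟩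
  by_cases h : w = v
  · subst h
    rw [Pi.mulSingle_eq_same]; exact hx
  · rw [Pi.mulSingle_eq_of_ne h]; exact (N w).one_mem

namespace ExPData

/-- enlarging an auxiliary set of `b` by a place where `b` is not a `p`-th power keeps the
surjectivity -/
theorem surj_insert [hp : Fact p.Prime] (D : ExPData U loc p Sp r) (S : Finset ι) (hS : Sp ⊆ S)
    (b : Kx) (hbS : b ∈ unitsS U loc S) (T : Finset ι) (hT : IsAuxSet U loc p r S b T)
    (v : ι) (hvS : v ∉ S) (hvb : loc v b ∉ powSubgroup (Kv v) p)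
    (y : ∀ w, Kv w) (hy : ∀ w ∈ insert v T, y w ∈ U w) :
    ∃ u ∈ unitsS U loc S, ∀ w ∈ insert v T, y w / loc w u ∈ powSubgroup (Kv w) p := by
  obtain ⟨u₀, hu₀, hu₀T⟩ := hT.surj y (fun w hw => hy w (Finset.mem_insert_of_mem hw))
  have ht : y v / loc v u₀ ∈ U v :=
    Subgroup.div_mem _ (hy v (Finset.mem_insert_self v T)) (hu₀ v hvS)
  obtain ⟨n, c, hnc⟩ := D.hcyc v (fun h => hvS (hS h)) (loc v b) (hbS v hvS) hvb _ ht
  refine ⟨u₀ * b ^ n, Subgroup.mul_mem _ hu₀ (Subgroup.pow_mem _ hbS n), fun w hw => ?_⟩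
  rcases Finset.mem_insert.mp hw with rfl | hwT
  · rw [map_mul, map_pow, ← div_div, hnc, mul_comm, mul_div_assoc, div_self', mul_one]
    exact mem_powSubgroup.mpr ⟨c, rfl⟩
  · rw [map_mul, map_pow, ← div_div]
    exact Subgroup.div_mem _ (hu₀T w hwT) (Subgroup.pow_mem _ (hT.pow w hwT) n)

/-- **T4** -/
theorem exists_eq_pow_mul_of_normGroup_le [hp : Fact p.Prime] (D : ExPData U loc p Sp r)
    (S : Finset ι) (hS : Sp ⊆ S) (h4 : idele U ≤ principal loc ⊔ ideleS U S)
    (hSEP : SEP U loc p S) (a b : Kx) (haS : a ∈ unitsS U loc S) (hbS : b ∈ unitsS U loc S)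
    (ha' : a ∉ powSubgroup Kx p) (hb' : b ∉ powSubgroup Kx p)
    (hle : normGroup U loc p Sp a ≤ normGroup U loc p Sp b) :
    ∃ (n : ℕ) (c : Kx), b = a ^ n * c ^ p := by
  by_contra hcon
  obtain ⟨v, hvS, hva, hvb⟩ := hSEP a haS ha' b hbS hcon
  have hvSp : v ∉ Sp := fun h => hvS (hS h)
  -- an element which is not a unit times a `p`-th power
  have hne : U v ⊔ powSubgroup (Kv v) p ≠ ⊤ := by
    intro h
    have := D.index_sup_pow v hvSp
    rw [h, Subgroup.index_top] at this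
    exact hp.out.one_lt.ne this
  obtain ⟨π, hπ⟩ : ∃ π : Kv v, π ∉ U v ⊔ powSubgroup (Kv v) p := by
    by_contra h
    simp only [not_exists, not_not] at h
    exact hne (eq_top_iff.mpr fun x _ => h x)
  -- the idele `π` at `v`
  have hx : Pi.mulSingle v π ∈ normGroup U loc p Sp a := by
    apply Subgroup.mem_sup_right
    apply mulSingle_mem_localCond
    rw [nrmMin_eq_top U loc p Sp a v hva]; trivial
  obtain ⟨T, hT⟩ := D.exists_auxSet S hS hSEP b hbS hb'
  have hvT : v ∉ T := fun h => hvb (hT.pow v h)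
  obtain ⟨hNb, -⟩ := D.normGroup_eq S hS h4 b hbS hb' T hT
  have hx' := hle hx
  rw [hNb] at hx'
  obtain ⟨y, hy, z, ⟨c, rfl⟩, hyz⟩ := Subgroup.mem_sup.mp hx'
  have hloc : ∀ w, loc w c = Pi.mulSingle v π w / y w := by
    intro w
    rw [← hyz]
    simp
  have hdisj : Disjoint S (insert v T) := by
    rw [Finset.disjoint_insert_right]
    exact ⟨hvS, hT.disj⟩
  have hc : c ∈ powSubgroup Kx p := by
    refine D.mem_pow_of_auxSet S hS h4 (insert v T) hdisj
      (D.surj_insert S hS b hbS T hT v hvS hvb) c ?_ ?_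
    · intro w hw
      have hwv : w ≠ v := fun h => hvS (h ▸ hw)
      rw [hloc, Pi.mulSingle_eq_of_ne hwv, one_div]
      exact Subgroup.inv_mem _ (hy.2 w hw)
    · intro w hwS hwT
      have hwv : w ≠ v := fun h => hwT (h ▸ Finset.mem_insert_self v T)
      have hwT' : w ∉ T := fun h => hwT (Finset.mem_insert_of_mem h)
      rw [hloc, Pi.mulSingle_eq_of_ne hwv, one_div]
      refine Subgroup.inv_mem _ (hy.1 w ?_)
      simp [hwS, hwT']
  -- contradiction at `v`
  apply hπ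
  obtain ⟨d, rfl⟩ := mem_powSubgroup.mp hc
  have h1 := hloc v
  rw [Pi.mulSingle_eq_same] at h1
  have h2 : π = loc v (d ^ p) * y v := by rw [h1]; simp
  rw [h2, mul_comm]
  refine Subgroup.mul_mem_sup (hy.1 v ?_) ?_
  · simp [hvS, hvT]
  · rw [map_pow]; exact mem_powSubgroup.mpr ⟨_, rfl⟩

end ExPData

end Fermat.Agent.S55lib.ExistP
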