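/-
S55 sprint, block K10 existence mod p (helper1).
Relative form of the counting lemma: subgroups `H` with `D ≤ H ≤ J`, `(J : H) = p`, where `J / D` is
an elementary abelian `p`-group of the same order as `Wg`.
-/
import Mathlib
import Fermat.Agent.S55lib.SecondIneq.ElemAbelian

set_option autoImplicit false

namespace Fermat.Agent.S55lib.ExistP

open scoped Classical
open Fermat.Agent.S55lib.SecondIneq

variable {p : ℕ} [hp : Fact p.Prime] {A : Type*} [CommGroup A]

section
variable (J D : Subgroup A)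

/-- the image in `J / D` of a subgroup -/
noncomputable def quotImage (X : Subgroup A) : Subgroup (J ⧸ D.subgroupOf J) :=
  (X.subgroupOf J).map (QuotientGroup.mk' (D.subgroupOf J))

theorem index_quotImage {X : Subgroup A} (hDX : D ≤ X) :
    (quotImage J D X).index = X.relIndex J := by
  rw [quotImage, Subgroup.index_map_eq _ (QuotientGroup.mk'_surjective _)]
  · rfl
  · rw [QuotientGroup.ker_mk']
    exact Subgroup.subgroupOf_mono J hDX

theorem quotImage_injective {X Y : Subgroup A} (hDX : D ≤ X) (hDY : D ≤ Y) (hXJ : X ≤ J)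
    (hYJ : Y ≤ J) (h : quotImage J D X = quotImage J D Y) : X = Y := by
  have hX : (D.subgroupOf J) ≤ X.subgroupOf J := Subgroup.subgroupOf_mono J hDX
  have hY : (D.subgroupOf J) ≤ Y.subgroupOf J := Subgroup.subgroupOf_mono J hDY
  have h1 := congrArg (Subgroup.comap (QuotientGroup.mk' (D.subgroupOf J))) h
  rw [quotImage, quotImage, Subgroup.comap_map_eq_self (by rwa [QuotientGroup.ker_mk']),
    Subgroup.comap_map_eq_self (by rwa [QuotientGroup.ker_mk']), Subgroup.subgroupOf_inj,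
    inf_eq_left.mpr hXJ, inf_eq_left.mpr hYJ] at h1
  exact h1

theorem mem_quotImage_mk_iff {X : Subgroup A} (hDX : D ≤ X) (x : J) :
    (QuotientGroup.mk x : J ⧸ D.subgroupOf J) ∈ quotImage J D X ↔ (x : A) ∈ X := by
  rw [quotImage, Subgroup.mem_map]
  constructor
  · rintro ⟨y, hy, hyx⟩
    rw [QuotientGroup.mk'_apply, QuotientGroup.eq, Subgroup.mem_subgroupOf] at hyx
    have hy' : (y : A) ∈ X := hy
    have h2 : (x : A) = y * ((y : A)⁻¹ * x) := by rw [mul_inv_cancel_left]
    rw [h2]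
    exact X.mul_mem hy' (hDX (by simpa using hyx))
  · intro hx
    exact ⟨x, hx, rfl⟩

end

/-- **counting lemma, relative form** -/
theorem exists_eq_of_injective_on_cyclic_rel (J D : Subgroup A) (_hDJ : D ≤ J)
    (hpow : ∀ x ∈ J, x ^ p ∈ D)
    {Wg : Type*} [CommGroup Wg] [Finite Wg] [hW : Fact (∀ w : Wg, w ^ p = 1)]
    (hcard : D.relIndex J = Nat.card Wg)
    (Ψ : Wg → Subgroup A) (hΨD : ∀ w, w ≠ 1 → D ≤ Ψ w) (hΨJ : ∀ w, w ≠ 1 → Ψ w ≤ J)
    (hΨidx : ∀ w, w ≠ 1 → (Ψ w).relIndex J = p)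
    (hΨinj : ∀ w w', w ≠ 1 → w' ≠ 1 → Ψ w = Ψ w' → w' ∈ Subgroup.zpowers w)
    (H : Subgroup A) (hDH : D ≤ H) (hHJ : H ≤ J) (hH : H.relIndex J = p) :
    ∃ w, w ≠ 1 ∧ Ψ w = H := by
  set G := J ⧸ D.subgroupOf J with hG
  haveI hGpow : Fact (∀ x : G, x ^ p = 1) := ⟨by
    intro x
    induction x using QuotientGroup.induction_on with
    | H y =>
      rw [← QuotientGroup.mk_pow, QuotientGroup.eq_one_iff, Subgroup.mem_subgroupOf]
      exact hpow y y.2⟩
  have hcardG : Nat.card G = Nat.card Wg := by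
    rw [← hcard, ← Subgroup.index_eq_card]; rfl
  haveI : Finite G := Nat.finite_of_card_ne_zero (by rw [hcardG]; exact Nat.card_pos.ne')
  obtain ⟨w, hw1, hw⟩ := exists_eq_of_injective_on_cyclic (p := p) hcardG.symm
    (fun w => quotImage J D (Ψ w))
    (fun w hw => by rw [index_quotImage J D (hΨD w hw)]; exact hΨidx w hw)
    (fun w w' hw hw' h => hΨinj w w' hw hw'
      (quotImage_injective J D (hΨD w hw) (hΨD w' hw') (hΨJ w hw) (hΨJ w' hw') h))
    (quotImage J D H) (by rw [index_quotImage J D hDH]; exact hH)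
  exact ⟨w, hw1, quotImage_injective J D (hΨD w hw1) hDH (hΨJ w hw1) hHJ hw⟩

/-- separation, relative form: an element of `J` outside `D'` (`D ≤ D' ≤ J`, `J^p ≤ D`) is avoided
by a subgroup of index `p` in `J` containing `D'` -/
theorem exists_relIndex_eq_of_not_mem (J D D' : Subgroup A) (hDD' : D ≤ D') (hD'J : D' ≤ J)
    (hpow : ∀ x ∈ J, x ^ p ∈ D) (c : A) (hcJ : c ∈ J) (hc : c ∉ D') :
    ∃ H : Subgroup A, D' ≤ H ∧ H ≤ J ∧ H.relIndex J = p ∧ c ∉ H := by
  set G := J ⧸ D.subgroupOf J with hG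
  haveI hGpow : Fact (∀ x : G, x ^ p = 1) := ⟨by
    intro x
    induction x using QuotientGroup.induction_on with
    | H y =>
      rw [← QuotientGroup.mk_pow, QuotientGroup.eq_one_iff, Subgroup.mem_subgroupOf]
      exact hpow y y.2⟩
  have hc' : (QuotientGroup.mk ⟨c, hcJ⟩ : G) ∉ quotImage J D D' := by
    rw [mem_quotImage_mk_iff J D hDD']; exact hc
  obtain ⟨H', hH'1, hH'2, hH'3⟩ := exists_index_eq_of_not_mem (p := p) (quotImage J D D') _ hc'
  set H : Subgroup A := (H'.comap (QuotientGroup.mk' (D.subgroupOf J))).map J.subtype with hHdef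
  have hHJ : H ≤ J := by
    rintro x ⟨y, -, rfl⟩
    exact y.2
  have hmemH : ∀ x : J, (x : A) ∈ H ↔ (QuotientGroup.mk x : G) ∈ H' := by
    intro x
    rw [hHdef, Subgroup.mem_map]
    constructor
    · rintro ⟨y, hy, hyx⟩
      have : y = x := Subtype.ext hyx
      rw [← this]; exact hy
    · intro hx
      exact ⟨x, hx, rfl⟩
  have hD'H : D' ≤ H := by
    intro x hx
    have hxJ : x ∈ J := hD'J hx
    rw [show x = ((⟨x, hxJ⟩ : J) : A) from rfl, hmemH]
    apply hH'1
    rw [mem_quotImage_mk_iff J D hDD']; exact hx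
  have hDH : D ≤ H := hDD'.trans hD'H
  have hquot : quotImage J D H = H' := by
    ext g
    induction g using QuotientGroup.induction_on with
    | H y => rw [mem_quotImage_mk_iff J D hDH, hmemH]
  refine ⟨H, hD'H, hHJ, ?_, ?_⟩
  · rw [← index_quotImage J D hDH, hquot]; exact hH'2
  · intro hcH
    apply hH'3
    have := (hmemH ⟨c, hcJ⟩).mp hcH
    exact this

end Fermat.Agent.S55lib.ExistP
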