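/-
S55 sprint, block K10 existence mod p (helper1).
**T5**: every subgroup `H` of index `p` in the ideles containing
`K^× · (∏_{v ∈ S} K_v^p × ∏_{v ∉ S} U_v)` is the norm group `N_a` of some `S`-unit `a ∉ K^p`.
-/
import Mathlib
import Fermat.Agent.S55lib.ExistP.Inject
import Fermat.Agent.S55lib.ExistP.RelCount

set_option autoImplicit false

namespace Fermat.Agent.S55lib.ExistP

open scoped Classical
open Fermat.Agent.S55lib.SecondIneq

variable {Kx : Type*} [CommGroup Kx] {ι : Type*} {Kv : ι → Type*} [∀ v, CommGroup (Kv v)]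
variable {U : ∀ v, Subgroup (Kv v)} {loc : ∀ v, Kx →* Kv v} {p : ℕ} {Sp : Finset ι} {r : ℕ}

/-- the base group `K^× · (∏_{v ∈ S} K_v^p × ∏_{v ∉ S} U_v)` -/
def baseGroup (U : ∀ v, Subgroup (Kv v)) (loc : ∀ v, Kx →* Kv v) (p : ℕ) (S : Finset ι) :
    Subgroup (∀ v, Kv v) :=
  condS U S S (fun v => powSubgroup (Kv v) p) ⊔ principal loc

namespace ExPData

theorem baseGroup_le_idele (D : ExPData U loc p Sp r) (S : Finset ι) :
    baseGroup U loc p S ≤ idele U :=
  sup_le ((condS_le _ _ _ _).trans (ideleS_le_idele U S)) (principal_le_idele D.hloc)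

theorem pow_mem_baseGroup (S : Finset ι) (h4 : idele U ≤ principal loc ⊔ ideleS U S)
    (x : ∀ v, Kv v) (hx : x ∈ idele U) : x ^ p ∈ baseGroup U loc p S := by
  obtain ⟨y, hy, z, hz, rfl⟩ := Subgroup.mem_sup.mp (h4 hx)
  rw [mul_pow, mul_comm]
  refine Subgroup.mul_mem_sup ⟨Subgroup.pow_mem _ hz p, fun v _ => ?_⟩ (Subgroup.pow_mem _ hy p)
  exact mem_powSubgroup.mpr ⟨z v, rfl⟩

theorem baseGroup_le_normGroup (S : Finset ι) (hS : Sp ⊆ S) (a : Kx)
    (haS : a ∈ unitsS U loc S) : baseGroup U loc p S ≤ normGroup U loc p Sp a := by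
  rw [baseGroup, normGroup, sup_comm]
  refine sup_le_sup_left ?_ _
  have h := condS_le_localCond (p := p) S hS a haS ∅ (fun v hv => absurd hv (Finset.notMem_empty v))
  rwa [Finset.union_empty] at h

/-- **T5** -/
theorem exists_normGroup_eq [hp : Fact p.Prime] (D : ExPData U loc p Sp r)
    (S : Finset ι) (hS : Sp ⊆ S) (h4 : idele U ≤ principal loc ⊔ ideleS U S)
    (hSEP : SEP U loc p S) (H : Subgroup (∀ v, Kv v)) (hH1 : baseGroup U loc p S ≤ H)
    (hH2 : H ≤ idele U) (hH3 : H.relIndex (idele U) = p) :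
    ∃ a ∈ unitsS U loc S, a ∉ powSubgroup Kx p ∧ normGroup U loc p Sp a = H := by
  set W := unitsS U loc S with hW
  set Wg := W ⧸ powSubgroup W p with hWg
  haveI hWpow : Fact (∀ w : Wg, w ^ p = 1) := ⟨quot_powSubgroup_pow p⟩
  have hidx : (powSubgroup W p).index = p ^ (S.card + r) := D.index_pow_unitsS S hS
  have hcardW : Nat.card Wg = p ^ (S.card + r) := by
    rw [← hidx, Subgroup.index_eq_card]
  haveI : Finite Wg := Nat.finite_of_card_ne_zero (by
    rw [hcardW]; exact pow_ne_zero _ hp.out.ne_zero)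
  -- representatives
  have hout : ∀ w : Wg, w ≠ 1 → (w.out : W).1 ∉ powSubgroup Kx p := by
    intro w hw h
    apply hw
    obtain ⟨c, hc⟩ := mem_powSubgroup.mp h
    have hcW : c ∈ W := D.mem_unitsS_of_pow_mem S (by rw [hc]; exact (w.out : W).2)
    rw [← QuotientGroup.out_eq' w, QuotientGroup.eq_one_iff]
    exact mem_powSubgroup.mpr ⟨⟨c, hcW⟩, Subtype.ext hc⟩
  obtain ⟨w, hw1, hw⟩ := exists_eq_of_injective_on_cyclic_rel (p := p) (idele U)
    (baseGroup U loc p S) (D.baseGroup_le_idele S) (pow_mem_baseGroup S h4)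
    (by rw [hcardW]; exact D.relIndex_condS_sup_principal S hS h4)
    (fun w : Wg => normGroup U loc p Sp (w.out : W).1)
    (fun w _ => baseGroup_le_normGroup S hS _ (w.out : W).2)
    (fun w _ => D.normGroup_le_idele _)
    (fun w hw => by
      obtain ⟨T, hT⟩ := D.exists_auxSet S hS hSEP _ (w.out : W).2 (hout w hw)
      exact (D.normGroup_eq S hS h4 _ (w.out : W).2 (hout w hw) T hT).2)
    (fun w w' hw hw' h => by
      obtain ⟨n, c, hnc⟩ := D.exists_eq_pow_mul_of_normGroup_le S hS h4 hSEP _ _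
        (w.out : W).2 (w'.out : W).2 (hout w hw) (hout w' hw') h.le
      have hcW : c ∈ W := by
        apply D.mem_unitsS_of_pow_mem S
        have : c ^ p = (w'.out : W).1 * (((w.out : W).1) ^ n)⁻¹ := by rw [hnc]; simp
        rw [this]
        exact Subgroup.mul_mem _ (w'.out : W).2
          (Subgroup.inv_mem _ (Subgroup.pow_mem _ (w.out : W).2 _))
      have h1 : (w'.out : W) = (w.out : W) ^ n * (⟨c, hcW⟩ : W) ^ p := Subtype.ext (by simpa using hnc)
      rw [Subgroup.mem_zpowers_iff]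
      refine ⟨n, ?_⟩
      rw [← QuotientGroup.out_eq' w', h1, QuotientGroup.mk_mul, QuotientGroup.mk_pow,
        QuotientGroup.mk_pow, quot_powSubgroup_pow, mul_one, QuotientGroup.out_eq', zpow_natCast])
    H hH1 hH2 hH3
  exact ⟨(w.out : W).1, (w.out : W).2, hout w hw1, hw⟩

end ExPData

end Fermat.Agent.S55lib.ExistP
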