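/-
S55 sprint, block K10 existence mod p (helper1).
**T7, the abstract existence theorem mod `p`** (Kummer case, idelic form).
`Sp ⊆ S₁ ⊆ S`, `J = K^× J_S`.  If an idele `c` lies in the norm group `N_a` of every `S`-unit
`a ∉ K^p` which is "unramified" outside `S₁` (`a ∈ U_v K_v^p` for `v ∈ S ∖ S₁`), then
`c ∈ K^× · (∏_{v ∈ S₁} K_v^p × ∏_{v ∉ S₁} U_v K_v^p) = K^× · J^p · U^{S₁}`.
-/
import Mathlib
import Fermat.Agent.S55lib.ExistP.Hyperplanes
import Fermat.Agent.S55lib.ExistP.Ramified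

set_option autoImplicit false

namespace Fermat.Agent.S55lib.ExistP

open scoped Classical
open Fermat.Agent.S55lib.SecondIneq

variable {Kx : Type*} [CommGroup Kx] {ι : Type*} {Kv : ι → Type*} [∀ v, CommGroup (Kv v)]
variable {U : ∀ v, Subgroup (Kv v)} {loc : ∀ v, Kx →* Kv v} {p : ℕ} {Sp : Finset ι} {r : ℕ}

/-- the target local conditions: `p`-th powers on `S₁`, `U_v K_v^p` outside -/
noncomputable def targetCond (U : ∀ v, Subgroup (Kv v)) (p : ℕ) (S₁ : Finset ι) (v : ι) :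
    Subgroup (Kv v) :=
  if v ∈ S₁ then powSubgroup (Kv v) p else U v ⊔ powSubgroup (Kv v) p

theorem targetCond_of_mem (U : ∀ v, Subgroup (Kv v)) (p : ℕ) {S₁ : Finset ι} {v : ι} (h : v ∈ S₁) :
    targetCond U p S₁ v = powSubgroup (Kv v) p := by
  rw [targetCond, if_pos h]

theorem targetCond_of_not_mem (U : ∀ v, Subgroup (Kv v)) (p : ℕ) {S₁ : Finset ι} {v : ι}
    (h : v ∉ S₁) : targetCond U p S₁ v = U v ⊔ powSubgroup (Kv v) p := by
  rw [targetCond, if_neg h]

theorem pow_le_targetCond (U : ∀ v, Subgroup (Kv v)) (p : ℕ) (S₁ : Finset ι) (v : ι) :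
    powSubgroup (Kv v) p ≤ targetCond U p S₁ v := by
  rw [targetCond]
  split_ifs
  · exact le_rfl
  · exact le_sup_right

/-- the target group `K^× · (∏_{v ∈ S₁} K_v^p × ∏_{v ∉ S₁} U_v K_v^p)` -/
noncomputable def targetGroup (U : ∀ v, Subgroup (Kv v)) (loc : ∀ v, Kx →* Kv v) (p : ℕ)
    (S₁ : Finset ι) : Subgroup (∀ v, Kv v) :=
  principal loc ⊔ localCond U (targetCond U p S₁)

namespace ExPData

theorem baseGroup_le_targetGroup (S₁ S : Finset ι) (hS : S₁ ⊆ S) :
    baseGroup U loc p S ≤ targetGroup U loc p S₁ := by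
  rw [baseGroup, targetGroup, sup_comm]
  refine sup_le_sup_left ?_ _
  intro x hx
  rw [mem_localCond]
  refine ⟨ideleS_le_idele U S hx.1, fun v => ?_⟩
  by_cases hvS : v ∈ S
  · exact pow_le_targetCond U p S₁ v (hx.2 v hvS)
  · rw [targetCond_of_not_mem U p (fun h => hvS (hS h))]
    exact Subgroup.mem_sup_left (hx.1 v hvS)

theorem targetGroup_le_idele (D : ExPData U loc p Sp r) (S₁ : Finset ι) :
    targetGroup U loc p S₁ ≤ idele U :=
  sup_le (principal_le_idele D.hloc) inf_le_left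

/-- the index of the norm group of an `S`-unit which is not a `p`-th power is `p` -/
theorem relIndex_normGroup_eq [hp : Fact p.Prime] (D : ExPData U loc p Sp r)
    (S : Finset ι) (hS : Sp ⊆ S) (h4 : idele U ≤ principal loc ⊔ ideleS U S)
    (hSEP : SEP U loc p S) (a : Kx) (haS : a ∈ unitsS U loc S) (ha' : a ∉ powSubgroup Kx p) :
    (normGroup U loc p Sp a).relIndex (idele U) = p := by
  obtain ⟨T, hT⟩ := D.exists_auxSet S hS hSEP a haS ha'
  exact (D.normGroup_eq S hS h4 a haS ha' T hT).2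

/-- **T7: abstract existence theorem mod `p`.** -/
theorem existence_mod_p [hp : Fact p.Prime] (D : ExPData U loc p Sp r)
    (S₁ S : Finset ι) (hS₁ : Sp ⊆ S₁) (hS : S₁ ⊆ S)
    (h4 : idele U ≤ principal loc ⊔ ideleS U S) (hSEP : SEP U loc p S)
    (c : ∀ v, Kv v) (hcJ : c ∈ idele U)
    (hc : ∀ a ∈ unitsS U loc S, a ∉ powSubgroup Kx p →
      (∀ v ∈ S, v ∉ S₁ → loc v a ∈ U v ⊔ powSubgroup (Kv v) p) →
      c ∈ normGroup U loc p Sp a) :
    c ∈ targetGroup U loc p S₁ := by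
  by_contra hcon
  have hSpS : Sp ⊆ S := hS₁.trans hS
  obtain ⟨H, hH1, hH2, hH3, hcH⟩ := exists_relIndex_eq_of_not_mem (p := p) (idele U)
    (baseGroup U loc p S) (targetGroup U loc p S₁) (baseGroup_le_targetGroup S₁ S hS)
    (D.targetGroup_le_idele S₁) (pow_mem_baseGroup S h4) c hcJ hcon
  obtain ⟨a, haS, ha', haH⟩ := D.exists_normGroup_eq S hSpS h4 hSEP H
    ((baseGroup_le_targetGroup S₁ S hS).trans hH1) hH2 hH3
  apply hcH
  rw [← haH]
  refine hc a haS ha' fun v hvS hvS₁ => ?_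
  by_contra hram
  obtain ⟨u, hu, huN⟩ := D.exists_unit_not_mem_normGroup S hSpS h4 hSEP a haS ha' v hvS
    (fun h => hvS₁ (hS₁ h)) hram
  apply huN
  rw [haH]
  apply hH1
  apply Subgroup.mem_sup_right
  apply mulSingle_mem_localCond
  rw [targetCond_of_not_mem U p hvS₁]
  exact Subgroup.mem_sup_left hu

/-- consumer form: the hypothesis quantifies over all global `a` unramified outside `S₁` -/
theorem existence_mod_p' [hp : Fact p.Prime] (D : ExPData U loc p Sp r)
    (S₁ S : Finset ι) (hS₁ : Sp ⊆ S₁) (hS : S₁ ⊆ S)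
    (h4 : idele U ≤ principal loc ⊔ ideleS U S) (hSEP : SEP U loc p S)
    (c : ∀ v, Kv v) (hcJ : c ∈ idele U)
    (hc : ∀ a : Kx, a ∉ powSubgroup Kx p →
      (∀ v, v ∉ S₁ → loc v a ∈ U v ⊔ powSubgroup (Kv v) p) →
      c ∈ normGroup U loc p Sp a) :
    c ∈ targetGroup U loc p S₁ :=
  D.existence_mod_p S₁ S hS₁ hS h4 hSEP c hcJ fun a haS ha' hunr =>
    hc a ha' fun v hv => by
      by_cases hvS : v ∈ S
      · exact hunr v hvS hv
      · exact Subgroup.mem_sup_left (haS v hvS)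

end ExPData

end Fermat.Agent.S55lib.ExistP
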