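/-
S55 sprint, block K10 existence mod p (helper1).
**Instantiation of the abstract existence theorem mod `p` for number fields** `F ∋ ζ_p`, `p` odd,
in the local-product model `Places.completionData F`:
the standing hypotheses `ExPData` (local indices, `S`-unit count (U), first inequality via Theorem C),
the separation property `SEP` (via the auxiliary Kummer extensions), and the existence theorem.
-/
import Mathlib
import Fermat.Agent.S55lib.ExistP.Main
import Fermat.Agent.S55lib.SecondIneq.K7

set_option autoImplicit false

namespace Fermat.Agent.S55lib.ExistP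

open Polynomial IsDedekindDomain NumberField Fermat.Agent.S55lib Fermat.Agent.S55lib.Dev
  Fermat.Agent.S55lib.Places Fermat.Agent.S55lib.SecondIneq

variable (F : Type) [Field F] [NumberField F] (p : ℕ) [hp : Fact p.Prime]

theorem finite_setOf_natCast_mem (p : ℕ) (hp0 : p ≠ 0) :
    {v : HeightOneSpectrum (𝓞 F) | (p : 𝓞 F) ∈ v.asIdeal}.Finite := by
  obtain ⟨S, hS⟩ := exists_finset_above F p hp0
  exact S.finite_toSet.subset fun v hv => hS v hv

/-- the places above `p` -/
noncomputable def placesAbove : Finset (HeightOneSpectrum (𝓞 F)) :=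
  (finite_setOf_natCast_mem F p hp.out.ne_zero).toFinset

variable {F p}

theorem mem_placesAbove (v : HeightOneSpectrum (𝓞 F)) :
    v ∈ placesAbove F p ↔ (p : 𝓞 F) ∈ v.asIdeal := by
  rw [placesAbove, Set.Finite.mem_toFinset]
  rfl

variable {ζ : F} (hζ : IsPrimitiveRoot ζ p)

include hζ in
/-- **the standing hypotheses hold for number fields** -/
theorem exPData_numberField (hp2 : p ≠ 2) (hU : UnitsPowStatement p)
    (hK6 : NormIndexStatement p) :
    ExPData (completionData F).U (completionData F).loc p (placesAbove F p)
      (InfinitePlace.nrComplexPlaces F) := by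
  haveI : NeZero p := ⟨hp.out.ne_zero⟩
  have hp3 : 2 < p := lt_of_le_of_ne hp.out.two_le (Ne.symm hp2)
  have hr₂ : Module.finrank ℚ F = 2 * InfinitePlace.nrComplexPlaces F := by
    rw [← InfinitePlace.card_add_two_mul_card_eq_rank,
      NumberField.InfinitePlace.IsPrimitiveRoot.nrRealPlaces_eq_zero_of_two_lt hp3 hζ, zero_add]
  refine ⟨(completionData F).finite_loc_not_mem_U, (completionData F).loc_pi_injective,
    fun v x hx => mem_unitGroup_of_pow_mem ((completionData F).𝒪v v) hp.out.pos x hx, ?_, ?_, ?_,
    fun S _ => hU F ⟨ζ, hζ⟩ S, ?_⟩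
  · -- local index `p ^ 2` outside `p`
    intro v hv
    rw [mem_placesAbove] at hv
    rw [index_pow_units_field_of_primitiveRoot ((completionData F).𝒪v v)
      (hζ.map_of_injective ((completionData F).emb v).injective)
      ((completionData F).natCast_emb_ne_zero v p hp.out.ne_zero)]
    have hunit : IsUnit ((p : ℕ) : (completionData F).𝒪v v) := by
      have hcast : ((p : ℕ) : (completionData F).𝒪v v) = (completionData F).embInt v (p : 𝓞 F) :=
        (map_natCast ((completionData F).embInt v) p).symm
      rw [hcast]
      by_contra hnu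
      exact hv (((completionData F).embInt_mem_maximalIdeal_iff v _).mp hnu)
    have htop : Ideal.span {((p : ℕ) : (completionData F).𝒪v v)} = ⊤ :=
      Ideal.span_singleton_eq_top.mpr hunit
    rw [htop]
    haveI : Subsingleton ((completionData F).𝒪v v ⧸ (⊤ : Ideal ((completionData F).𝒪v v))) :=
      Ideal.Quotient.subsingleton_iff.mpr rfl
    rw [Nat.card_unique, mul_one]
  · intro v hv
    rw [mem_placesAbove] at hv
    exact (completionData F).relIndex_pow_U p hζ v hv
  · rw [(completionData F).prod_index_pow p hζ (placesAbove F p)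
      (fun v hv => (mem_placesAbove v).mpr hv), hr₂]
    congr 1
    ring
  · exact fun a ha => not_idele_le_of_normIndex p hζ hK6 (placesAbove F p)
      (fun v hv => (mem_placesAbove v).mpr hv) a ha

include hζ in
/-- **the separation property holds for number fields** (via the auxiliary Kummer extension
`F(a^{1/p})`, the first inequality over it, weak approximation and Kummer theory) -/
theorem sep_numberField (hp2 : p ≠ 2) (hU : UnitsPowStatement p) (hK6 : NormIndexStatement p)
    (S : Finset (HeightOneSpectrum (𝓞 F))) (hS : placesAbove F p ⊆ S) :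
    SEP (completionData F).U (completionData F).loc p S := by
  classical
  intro a haS ha' b hbS hb
  have D := exPData_numberField hζ hp2 hU hK6
  obtain ⟨L, _, _, _, _, σ, α, hgenσ, hcard, hord, hα, hσα, hadj⟩ := exists_aux_kummer p hζ a ha'
  have hζL : IsPrimitiveRoot (algebraMap F L ζ) p :=
    hζ.map_of_injective (algebraMap F L).injective
  set SL : Finset (HeightOneSpectrum (𝓞 L)) :=
    S.biUnion fun v => (finite_setOf_placeBelow_eq (F := F) (M := L) v).toFinset with hSLdef
  have hSL : ∀ w, w ∈ SL ↔ placeBelow F w ∈ S := by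
    intro w
    rw [hSLdef, Finset.mem_biUnion]
    constructor
    · rintro ⟨v, hv, hw⟩
      rw [Set.Finite.mem_toFinset] at hw
      rw [show placeBelow F w = v from hw]; exact hv
    · intro h
      exact ⟨placeBelow F w, h, (Set.Finite.mem_toFinset _).mpr rfl⟩
  have hα0 : α ≠ 0 := by
    rintro rfl
    rw [zero_pow hp.out.ne_zero] at hα
    exact (_root_.map_ne_zero _).mpr a.ne_zero hα.symm
  have hαu : (Units.mk0 α hα0) ^ p = Units.map (algebraMap F L : F →* L) a := by
    apply Units.ext
    rw [Units.val_pow_eq_pow_val, Units.val_mk0, hα]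
    rfl
  have hfix : ∀ x : L, σ x = x → ∃ c : F, algebraMap F L c = x := by
    intro x hx
    have : x ∈ Set.range (algebraMap F L) := by
      rw [IsGalois.mem_range_algebraMap_iff_fixed]
      intro γ
      obtain ⟨k, rfl⟩ := Subgroup.mem_zpowers_iff.mp (hgenσ γ)
      have hstab : σ ∈ MulAction.stabilizer (L ≃ₐ[F] L) x := MulAction.mem_stabilizer_iff.mpr hx
      exact MulAction.mem_stabilizer_iff.mp (Subgroup.zpow_mem _ hstab k)
    exact this
  refine exists_separating_place (completionData F).U (completionData F).loc
    (completionData L).U (completionData L).loc (completionData L).finite_loc_not_mem_U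
    (Units.map (algebraMap F L : F →* L)) (placeBelow F)
    (fun w => Units.map (localEmb F L w : (completionData F).Fv (placeBelow F w) →*
      (completionData L).Fv w)) ?_ p S SL hSL
    (nrmPow (completionData L).loc p) (nrmPow_eq_top (completionData L).loc p)
    (pow_le_nrmPow (completionData L).loc p)
    (fun b hb => not_idele_le_nrmPow p hζL hK6 b hb)
    (fun y _ => (completionData L).exists_global_div_mem_pow p hp.out.ne_zero SL y)
    (fun v hv g hg hgp u hu => D.hcyc v (fun h => hv (hS h)) g hg hgp u hu)
    a b (Units.mk0 α hα0) hαu haS hbS ?_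
  · intro w x
    apply Units.ext
    simp only [Units.coe_map, MonoidHom.coe_coe, CompletionData.coe_loc]
    exact localEmb_emb w (x : F)
  · intro hbL
    exact hb (kummer_inter_units p hp.out.pos hζ σ hfix hσα hαu b hbL)

include hζ in
/-- **K10, existence theorem mod `p` for number fields, local-product model.**
`c` an idele of `F`; if `c ∈ Fˣ · ∏ nrmMin(a)` for every `a ∈ Fˣ ∖ Fˣᵖ` with `a ∈ U_v F_v^p` for all
`v ∉ S₁` (i.e. `F(a^{1/p})/F` unramified outside `S₁`), then
`c ∈ Fˣ · (∏_{v ∈ S₁} F_v^p × ∏_{v ∉ S₁} U_v F_v^p)`. -/
theorem existence_mod_p_numberField (hp2 : p ≠ 2) (hU : UnitsPowStatement p)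
    (hK6 : NormIndexStatement p) (S₁ : Finset (HeightOneSpectrum (𝓞 F)))
    (hS₁ : placesAbove F p ⊆ S₁) (c : ∀ v, ((completionData F).Fv v)ˣ)
    (hcJ : c ∈ idele (completionData F).U)
    (hc : ∀ a : Fˣ, a ∉ powSubgroup Fˣ p →
      (∀ v, v ∉ S₁ → (completionData F).loc v a ∈
        (completionData F).U v ⊔ powSubgroup ((completionData F).Fv v)ˣ p) →
      c ∈ ExPData.normGroup (completionData F).U (completionData F).loc p (placesAbove F p) a) :
    c ∈ targetGroup (completionData F).U (completionData F).loc p S₁ := by
  classical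
  obtain ⟨S₀, hS₀⟩ := (completionData F).exists_finset_idele_le
  have D := exPData_numberField hζ hp2 hU hK6
  exact D.existence_mod_p' S₁ (S₁ ∪ S₀) hS₁ Finset.subset_union_left
    (hS₀ _ Finset.subset_union_right)
    (sep_numberField hζ hp2 hU hK6 _ (hS₁.trans Finset.subset_union_left)) c hcJ hc

end Fermat.Agent.S55lib.ExistP
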