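/-
S55 sprint, block K10 existence mod p (helper1).
**The existence theorem mod `p` in the `Dev.Idele` model (consumer form).**
`F ∋ ζ_p` a number field, `p` odd, `T ∋ p` a finite set of rational primes, `c ∈ I(F)`.
If for every `a ∈ Fˣ ∖ Fˣᵖ` with `a ∈ U · F_κ^p` at all embeddings `κ` over primes `q ∉ T`
(i.e. `F(a^{1/p})/F` is unramified outside `T`) there is a Kummer layer `M = F(α)`, `α ^ p = a`, with
`c ∈ Fˣ · U^T · N I(M)`, then `c ∈ Fˣ · U^T · I(F)^p`  (`U^T = ∏_{q ∉ T} U_q`, `Dev.unitsOutside`).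
-/
import Mathlib
import Fermat.Agent.S55lib.ExistP.NumberField

set_option autoImplicit false

namespace Fermat.Agent.S55lib.ExistP

open Polynomial IsDedekindDomain NumberField Fermat.Agent.S55lib Fermat.Agent.S55lib.Dev
  Fermat.Agent.S55lib.Places Fermat.Agent.S55lib.SecondIneq

section Cond

variable {F : Type*} [Field F] [Algebra ℚ F] {q : ℕ} [Fact q.Prime]

/-- `a ∈ U · F_κ^p`: the Kummer extension `F(a^{1/p})` is unramified at `κ` (for `q ≠ p`) -/
def UnrCond (p : ℕ) (a : F) (κ : Emb q F) : Prop :=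
  ∃ u ∈ localField q F κ, ∃ t ∈ localField q F κ, ‖u‖ = 1 ∧ κ a = u * t ^ p

theorem UnrCond.smul {p : ℕ} {a : F} {κ : Emb q F} (h : UnrCond p a κ) (d : GalQq q) :
    UnrCond p a (d • κ) := by
  obtain ⟨u, hu, t, ht, hu1, hz⟩ := h
  refine ⟨d u, localField_smul d κ u hu, d t, localField_smul d κ t ht, ?_, ?_⟩
  · rw [Places.norm_algEquiv]; exact hu1
  · rw [Emb.smul_apply, hz, map_mul, map_pow]

end Cond

section Global

variable {F : Type*} [Field F] [Algebra ℚ F] [Algebra.IsAlgebraic ℚ F] {q : ℕ} [Fact q.Prime]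

theorem norm_eq_of_norm_sub_lt' {S : Type*} [SeminormedAddCommGroup S] [IsUltrametricDist S]
    {x y : S} (h : ‖y - x‖ < ‖y‖) : ‖x‖ = ‖y‖ := by
  apply le_antisymm
  · have h1 := IsUltrametricDist.norm_add_le_max y (-(y - x))
    rw [norm_neg] at h1
    have h2 : y + -(y - x) = x := by abel
    rw [h2] at h1
    exact h1.trans (max_le le_rfl h.le)
  · by_contra hlt
    push Not at hlt
    have h1 := IsUltrametricDist.norm_add_le_max x (y - x)
    have h2 : x + (y - x) = y := by abel
    rw [h2] at h1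
    exact absurd h1 (not_le.mpr (max_lt hlt h))

/-- the value group of the local field is the value group of the global field -/
theorem exists_norm_eq_of_mem_localField (κ : Emb q F) {y : PadicAlgCl q}
    (hy : y ∈ localField q F κ) (hy0 : y ≠ 0) : ∃ x : F, ‖κ x‖ = ‖y‖ := by
  obtain ⟨x, hx⟩ := isApprox_of_mem_localField κ hy ‖y‖ (norm_pos_iff.mpr hy0)
  exact ⟨x, norm_eq_of_norm_sub_lt' hx⟩

/-- **global form of the unramifiedness condition** (the shape of helper4's
`isUnramifiedOutside_adjoin_root_of_norm`) -/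
theorem UnrCond.exists_global {p : ℕ} (hp : p ≠ 0) {a : F} (ha : a ≠ 0) {κ : Emb q F}
    (h : UnrCond p a κ) : ∃ t : F, ‖κ (a * t ^ p)‖ = 1 := by
  obtain ⟨u, -, s, hs, hu1, hz⟩ := h
  have hκa : κ a ≠ 0 := (_root_.map_ne_zero κ).mpr ha
  have hs0 : s ≠ 0 := by
    rintro rfl
    rw [zero_pow hp, mul_zero] at hz
    exact hκa hz
  obtain ⟨x, hx⟩ := exists_norm_eq_of_mem_localField κ hs hs0
  have hx0 : x ≠ 0 := by
    rintro rfl
    rw [map_zero, norm_zero] at hx
    exact (norm_ne_zero_iff.mpr hs0) hx.symm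
  refine ⟨x⁻¹, ?_⟩
  rw [map_mul, map_pow, map_inv₀, norm_mul, norm_pow, norm_inv, hx, hz, norm_mul, hu1, one_mul,
    norm_pow, ← mul_pow, mul_inv_cancel₀ (norm_ne_zero_iff.mpr hs0), one_pow]

omit [Algebra.IsAlgebraic ℚ F] in
theorem unrCond_of_exists_global {p : ℕ} (hp : p ≠ 0) {a : F} {κ : Emb q F}
    (h : ∃ t : F, ‖κ (a * t ^ p)‖ = 1) : UnrCond p a κ := by
  obtain ⟨t, ht⟩ := h
  have ht0 : t ≠ 0 := by
    rintro rfl
    rw [zero_pow hp, mul_zero, map_zero, norm_zero] at ht
    exact absurd ht zero_ne_one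
  have hmul : a = a * t ^ p * (t⁻¹) ^ p := by
    rw [inv_pow, mul_assoc, mul_inv_cancel₀ (pow_ne_zero p ht0), mul_one]
  have hκ : κ a = κ (a * t ^ p) * (κ t⁻¹) ^ p := by
    rw [← map_pow, ← map_mul, ← hmul]
  have h1 : κ (a * t ^ p) ∈ localField q F κ :=
    IntermediateField.subset_adjoin _ _ ⟨a * t ^ p, rfl⟩
  have h2 : κ t⁻¹ ∈ localField q F κ := IntermediateField.subset_adjoin _ _ ⟨t⁻¹, rfl⟩
  exact ⟨_, h1, _, h2, ht, hκ⟩

end Global

section Places

variable {F : Type} [Field F] [NumberField F]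

theorem unrCond_transport (p : ℕ) (a : F) {q₁ q₂ : Nat.Primes} (h : q₁ = q₂)
    (κ₁ : Emb (q₁ : ℕ) F) (κ₂ : Emb (q₂ : ℕ) F) (hκ : primeOf κ₁ = primeOf κ₂)
    (h1 : UnrCond p a κ₁) : UnrCond p a κ₂ := by
  subst h
  obtain ⟨d, rfl⟩ := (primeOf_eq_iff κ₁ κ₂).mp hκ
  exact h1.smul d

theorem unrCond_embOf_of_mem (p : ℕ) (v : HeightOneSpectrum (𝓞 F)) (a : Fˣ)
    (h : (completionData F).loc v a ∈
      (completionData F).U v ⊔ powSubgroup ((completionData F).Fv v)ˣ p) :
    UnrCond p (a : F) (embOf v) := by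
  obtain ⟨u, hu, t, ht, hu1, hz⟩ := exists_cv_unit_mul_pow_eq p v h
  exact ⟨u, hu, t, ht, hu1, by rw [← cv_loc]; exact hz⟩

variable (F) in
/-- the places over the primes in `T` -/
noncomputable def placesOver (T : Set Nat.Primes) (hT : T.Finite) :
    Finset (HeightOneSpectrum (𝓞 F)) :=
  (hT.biUnion (fun q _ => finite_setOf_qPrimeOf_eq (M := F) q)).toFinset

theorem mem_placesOver (T : Set Nat.Primes) (hT : T.Finite) (v : HeightOneSpectrum (𝓞 F)) :
    v ∈ placesOver F T hT ↔ qPrimeOf F v ∈ T := by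
  rw [placesOver, Set.Finite.mem_toFinset, Set.mem_iUnion₂]
  constructor
  · rintro ⟨q, hq, hv⟩
    rw [show qPrimeOf F v = q from hv]; exact hq
  · intro h
    exact ⟨qPrimeOf F v, h, rfl⟩

theorem placesAbove_subset_placesOver (p : ℕ) [hp : Fact p.Prime] (T : Set Nat.Primes)
    (hT : T.Finite) (hpT : (⟨p, hp.out⟩ : Nat.Primes) ∈ T) :
    placesAbove F p ⊆ placesOver F T hT := by
  intro v hv
  rw [mem_placesAbove] at hv
  rw [mem_placesOver]
  have h1 : qOf v = p := qOf_eq_of_natCast_mem v hp.out hv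
  have h2 : qPrimeOf F v = ⟨p, hp.out⟩ := Subtype.ext h1
  rw [h2]; exact hpT

end Places

section NormGroup

variable {F : Type} [Field F] [NumberField F] {p : ℕ} [hp : Fact p.Prime] {ζ : F}
  (hζ : IsPrimitiveRoot ζ p)

include hζ in
/-- **the explicit group `N_a` is the norm group of `F(a^{1/p})`**:
`Θ⁻¹(Fˣ · ∏ nrmMin(a)) = Fˣ · N I(M)` for every Kummer layer `M ∋ α`, `α ^ p = a ∉ Fˣᵖ`
(norm containment = Theorem A; equality from the exact index `p` and the first inequality). -/
theorem comap_normGroup_eq (hp2 : p ≠ 2) (hU : UnitsPowStatement p) (hK6 : NormIndexStatement p)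
    (a : Fˣ) (ha' : a ∉ powSubgroup Fˣ p)
    (M : Type) [Field M] [NumberField M] [Algebra F M] [IsGalois F M] (σ : M ≃ₐ[F] M)
    (hσ : ∀ γ : M ≃ₐ[F] M, γ ∈ Subgroup.zpowers σ) (hcard : Nat.card (M ≃ₐ[F] M) = p)
    {α : M} (hα : α ^ p = algebraMap F M (a : F)) :
    (ExPData.normGroup (completionData F).U (completionData F).loc p (placesAbove F p) a).comap
        (ideleToLocal F) =
      Dev.principal F ⊔ (Idele.norm (IsScalarTower.toAlgHom ℚ F M)).range := by
  classical
  haveI : FiniteDimensional F M := Module.Finite.of_restrictScalars_finite ℚ F M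
  obtain ⟨ζ', hζ', hσα, hgen⟩ := exists_primitiveRoot_apply_eq p σ hσ hcard hζ a ha' hα
  have hord : orderOf σ = p := by
    rw [orderOf_eq_card_of_forall_mem_zpowers hσ, hcard]
  have D := exPData_numberField hζ hp2 hU hK6
  -- the exact index
  obtain ⟨S₀, hS₀⟩ := (completionData F).exists_finset_idele_le
  set S : Finset (HeightOneSpectrum (𝓞 F)) :=
    placesAbove F p ∪ S₀ ∪ ((completionData F).finite_loc_not_mem_U a).toFinset with hS
  have hSp : placesAbove F p ⊆ S := by
    rw [hS]; exact Finset.subset_union_left.trans Finset.subset_union_left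
  have hS4 := hS₀ S (by
    rw [hS]
    exact Finset.subset_union_right.trans Finset.subset_union_left)
  have haS : a ∈ unitsS (completionData F).U (completionData F).loc S := by
    intro v hv
    by_contra hcon
    apply hv
    rw [hS]
    apply Finset.mem_union_right
    exact (Set.Finite.mem_toFinset _).mpr hcon
  have hidx := D.relIndex_normGroup_eq S hSp hS4 (sep_numberField hζ hp2 hU hK6 S hSp) a haS ha'
  set H := (ExPData.normGroup (completionData F).U (completionData F).loc p
    (placesAbove F p) a).comap (ideleToLocal F) with hH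
  have hHidx : H.index = p := by
    rw [hH, Subgroup.index_comap, range_ideleToLocal]
    exact hidx
  -- norm containment
  have hle : H ≤ Dev.principal F ⊔ (Idele.norm (IsScalarTower.toAlgHom ℚ F M)).range := by
    intro x hx
    rw [← ideleNorm_eq]
    exact mem_principal_sup_range_ideleNorm p σ hσ hord hζ' a hα hσα hgen (placesAbove F p)
      (fun v hv => (mem_placesAbove v).mpr hv) x hx
  -- the first inequality
  have hne : Dev.principal F ⊔ (Idele.norm (IsScalarTower.toAlgHom ℚ F M)).range ≠ ⊤ :=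
    hK6 F M σ ⟨hσ, hcard, ζ, hζ⟩
  have hmul := Subgroup.relIndex_mul_index hle
  rw [hHidx] at hmul
  have hdvd : (Dev.principal F ⊔ (Idele.norm (IsScalarTower.toAlgHom ℚ F M)).range).index ∣ p :=
    Dvd.intro_left _ hmul
  have hidxP : (Dev.principal F ⊔ (Idele.norm (IsScalarTower.toAlgHom ℚ F M)).range).index = p := by
    rcases (Nat.dvd_prime hp.out).mp hdvd with h1 | h1
    · exact absurd (Subgroup.index_eq_one.mp h1) hne
    · exact h1
  rw [hidxP] at hmul
  have hrel : H.relIndex (Dev.principal F ⊔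
      (Idele.norm (IsScalarTower.toAlgHom ℚ F M)).range) = 1 := by
    have hp0 : 0 < p := hp.out.pos
    exact Nat.eq_of_mul_eq_mul_right hp0 (by rw [hmul, one_mul])
  exact le_antisymm hle (Subgroup.relIndex_eq_one.mp hrel)

end NormGroup

section Transport

variable {F : Type} [Field F] [NumberField F] {p : ℕ}

/-- the units outside `T` lie in the explicit groups of an `a` unramified outside `T` -/
theorem ideleToLocal_mem_localCond_of_mem_unitsOutside (T : Set Nat.Primes) (hT : T.Finite)
    (Sp : Finset (HeightOneSpectrum (𝓞 F))) (hSp : Sp ⊆ placesOver F T hT) (a : Fˣ)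
    (ha : ∀ v, v ∉ placesOver F T hT → (completionData F).loc v a ∈
      (completionData F).U v ⊔ powSubgroup ((completionData F).Fv v)ˣ p)
    (W : Dev.Idele F) (hW : W ∈ Dev.unitsOutside F T) :
    ideleToLocal F W ∈ localCond (completionData F).U
      (nrmMin (completionData F).U (completionData F).loc p Sp a) := by
  rw [mem_localCond]
  refine ⟨ideleToLocal_mem_idele W, fun v => ?_⟩
  by_cases hv : v ∈ placesOver F T hT
  · have h1 : W.1 (qPrimeOf F v) = 1 := hW.2 _ ((mem_placesOver T hT v).mp hv)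
    have h2 : ideleToLocal F W v = 1 := by
      rw [ideleToLocal_apply, toIdele_apply, h1, map_one]
      rfl
    rw [h2]
    exact Subgroup.one_mem _
  · have h1 : W.1 (qPrimeOf F v) ∈ Uq ((qPrimeOf F v : Nat.Primes) : ℕ) F :=
      hW.1 _ (fun h => hv ((mem_placesOver T hT v).mpr h))
    have h2 : ideleToLocal F W v ∈ (completionData F).U v :=
      (mem_Uq_iff_forall_toIdele W.1 (qPrimeOf F v)).mp h1 v rfl
    exact units_le_nrmMin _ _ p Sp a v (fun h => hv (hSp h)) (ha v hv) h2

/-- **pull-back of the target group**: `Θ(c) ∈ Fˣ · (∏_{v | T} F_v^p × ∏_{v ∤ T} U_v F_v^p)` means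
`c ∈ Fˣ · U^T · I(F)^p`. -/
theorem mem_of_ideleToLocal_mem_targetGroup (hp0 : 0 < p) (T : Set Nat.Primes) (hT : T.Finite)
    (c : Dev.Idele F)
    (h : ideleToLocal F c ∈ targetGroup (completionData F).U (completionData F).loc p
      (placesOver F T hT)) :
    c ∈ Dev.principal F ⊔ Dev.unitsOutside F T ⊔
      (powMonoidHom p : Dev.Idele F →* Dev.Idele F).range := by
  classical
  rw [targetGroup] at h
  obtain ⟨y₀, ⟨a, rfl⟩, n, hn, hyn⟩ := Subgroup.mem_sup.mp h
  rw [mem_localCond] at hn
  obtain ⟨hnJ, hnv⟩ := hn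
  -- local decompositions `n v = u v * (y v) ^ p`
  have hdec : ∀ v, ∃ u y : ((completionData F).Fv v)ˣ, u ∈ (completionData F).U v ∧
      (v ∈ placesOver F T hT → u = 1) ∧ n v = u * y ^ p := by
    intro v
    have := hnv v
    by_cases hv : v ∈ placesOver F T hT
    · rw [targetCond_of_mem _ p hv] at this
      obtain ⟨y, hy⟩ := mem_powSubgroup.mp this
      exact ⟨1, y, Subgroup.one_mem _, fun _ => rfl, by rw [one_mul, hy]⟩
    · rw [targetCond_of_not_mem _ p hv] at this
      obtain ⟨u, hu, t, ht, hut⟩ := Subgroup.mem_sup.mp this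
      obtain ⟨y, rfl⟩ := mem_powSubgroup.mp ht
      exact ⟨u, y, hu, fun h => absurd h hv, hut.symm⟩
  choose u y hu hu1 hny using hdec
  -- `y` is an idele
  have hyJ : y ∈ idele (completionData F).U := by
    refine hnJ.subset ?_
    intro v hv hnU
    apply hv
    apply mem_unitGroup_of_pow_mem ((completionData F).𝒪v v) hp0
    have : (y v) ^ p = (u v)⁻¹ * n v := by rw [hny v, inv_mul_cancel_left]
    rw [this]
    exact Subgroup.mul_mem _ (Subgroup.inv_mem _ (hu v)) hnU
  obtain ⟨Y, hY⟩ := exists_idele_toIdele_eq y hyJ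
  -- the unit part
  set W : Dev.Idele F := c * ((diagI F a) * Y ^ p)⁻¹ with hW
  have hYy : ideleToLocal F Y = y := hY
  have hWu : ideleToLocal F W = u := by
    funext v
    have e1 : ideleToLocal F W v =
        ideleToLocal F c v * ((completionData F).loc v a * (y v) ^ p)⁻¹ := by
      rw [hW, map_mul, map_inv, map_mul, map_pow, ideleToLocal_diagI, hYy]
      rfl
    have e2 : ideleToLocal F c v = (completionData F).loc v a * n v := by
      rw [← hyn]
      rfl
    rw [e1, e2, hny v]
    have : ∀ A U' Yp : ((completionData F).Fv v)ˣ, A * (U' * Yp) * (A * Yp)⁻¹ = U' := by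
      intro A U' Yp
      calc A * (U' * Yp) * (A * Yp)⁻¹ = U' * ((A * Yp) * (A * Yp)⁻¹) := by ac_rfl
        _ = U' := by rw [mul_inv_cancel, mul_one]
    exact this _ _ _
  have hWmem : W ∈ Dev.unitsOutside F T := by
    constructor
    · intro q hq
      rw [mem_Uq_iff_forall_toIdele]
      intro v _
      have := congrFun hWu v
      rw [ideleToLocal_apply] at this
      rw [this]
      exact hu v
    · intro q hq
      -- the idele which is `W` at the primes of `T` and trivial elsewhere is trivial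
      set x'' : ∀ q' : Nat.Primes, Jq (q' : ℕ) F := fun q' => if q' ∈ T then W.1 q' else 1
        with hx''
      have h1 : toIdele F x'' = 1 := by
        funext v
        rw [toIdele_apply, hx'']
        by_cases hv : qPrimeOf F v ∈ T
        · simp only [if_pos hv]
          have := congrFun hWu v
          rw [ideleToLocal_apply, toIdele_apply] at this
          rw [this, hu1 v ((mem_placesOver T hT v).mpr hv)]
          rfl
        · simp only [if_neg hv]
          rw [map_one]
          rfl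
      have h2 : x'' = 1 := toIdele_injective (by rw [h1, map_one])
      have h3 := congrFun h2 q
      rw [hx''] at h3
      simp only [if_pos hq] at h3
      exact h3
  have hc : c = (diagI F a * W) * Y ^ p := by
    rw [hW]
    simp only [mul_inv_rev]
    rw [mul_comm (diagI F a) (c * _), mul_assoc, mul_assoc, mul_assoc]
    simp
  rw [hc]
  refine Subgroup.mul_mem_sup (Subgroup.mul_mem_sup ⟨a, rfl⟩ hWmem) ⟨Y, rfl⟩

end Transport

section Main

variable {F : Type} [Field F] [NumberField F] {p : ℕ} [hp : Fact p.Prime] {ζ : F}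
  (hζ : IsPrimitiveRoot ζ p)

include hζ in
/-- **K10: the existence theorem mod `p`, `Dev.Idele` model.** -/
theorem existence_mod_p_idele (hp2 : p ≠ 2) (hU : UnitsPowStatement p)
    (hK6 : NormIndexStatement p) (T : Set Nat.Primes) (hT : T.Finite)
    (hpT : (⟨p, hp.out⟩ : Nat.Primes) ∈ T) (c : Dev.Idele F)
    (hc : ∀ a : Fˣ, a ∉ powSubgroup Fˣ p →
      (∀ q : Nat.Primes, q ∉ T → ∀ κ : Emb (q : ℕ) F, UnrCond p (a : F) κ) →
      ∃ (M : Type) (_ : Field M) (_ : NumberField M) (_ : Algebra F M) (_ : IsGalois F M)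
        (σ : M ≃ₐ[F] M) (α : M), IsKummerLayer p F M σ ∧ α ^ p = algebraMap F M (a : F) ∧
        c ∈ Dev.principal F ⊔ Dev.unitsOutside F T ⊔
          (Idele.norm (IsScalarTower.toAlgHom ℚ F M)).range) :
    c ∈ Dev.principal F ⊔ Dev.unitsOutside F T ⊔
      (powMonoidHom p : Dev.Idele F →* Dev.Idele F).range := by
  have hSp := placesAbove_subset_placesOver (F := F) p T hT hpT
  apply mem_of_ideleToLocal_mem_targetGroup hp.out.pos T hT c
  apply existence_mod_p_numberField hζ hp2 hU hK6 (placesOver F T hT) hSp (ideleToLocal F c)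
    (ideleToLocal_mem_idele c)
  intro a ha' haunr
  -- the condition in the `Dev` model
  have hcond : ∀ q : Nat.Primes, q ∉ T → ∀ κ : Emb (q : ℕ) F, UnrCond p (a : F) κ := by
    intro q hq κ
    have hv : primeOf κ ∉ placesOver F T hT := by
      rw [mem_placesOver, qPrimeOf_primeOf]
      exact hq
    exact unrCond_transport p (a : F) (qPrimeOf_primeOf q κ) (embOf (primeOf κ)) κ
      (primeOf_embOf _) (unrCond_embOf_of_mem p (primeOf κ) a (haunr _ hv))
  obtain ⟨M, _, _, _, _, σ, α, hlayer, hα, hcM⟩ := hc a ha' hcond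
  -- `c = b · w · N(x)`
  obtain ⟨bw, hbw, nx, hnx, hcdec⟩ := Subgroup.mem_sup.mp hcM
  obtain ⟨b, hb, w, hw, hbwdec⟩ := Subgroup.mem_sup.mp hbw
  have hnorm : nx ∈ (ExPData.normGroup (completionData F).U (completionData F).loc p
      (placesAbove F p) a).comap (ideleToLocal F) := by
    rw [comap_normGroup_eq hζ hp2 hU hK6 a ha' M σ hlayer.gen hlayer.card hα]
    exact Subgroup.mem_sup_right hnx
  have hbN : ideleToLocal F b ∈ ExPData.normGroup (completionData F).U (completionData F).loc p
      (placesAbove F p) a := by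
    obtain ⟨b₀, rfl⟩ := hb
    rw [ideleToLocal_diagI]
    exact Subgroup.mem_sup_left ⟨b₀, rfl⟩
  have hwN : ideleToLocal F w ∈ ExPData.normGroup (completionData F).U (completionData F).loc p
      (placesAbove F p) a :=
    Subgroup.mem_sup_right
      (ideleToLocal_mem_localCond_of_mem_unitsOutside T hT (placesAbove F p) hSp a haunr w hw)
  rw [← hcdec, ← hbwdec, map_mul, map_mul]
  exact Subgroup.mul_mem _ (Subgroup.mul_mem _ hbN hwN) hnorm

end Main

end Fermat.Agent.S55lib.ExistP
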