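/-
S55 sprint, block K10 existence mod p (helper1).
**K10 unconditionally** (`p` odd): the two inputs `UnitsPowStatement p` (lead,
`Places.relIndex_pow_unitsS_completionData`) and `NormIndexStatement p` (helper2's first inequality,
`Places.firstIneqStatement`) discharged.
-/
import Mathlib
import Fermat.Agent.S55lib.ExistP.IdeleForm
import Fermat.Agent.S55lib.Places.CyclicLayers

set_option autoImplicit false

namespace Fermat.Agent.S55lib.ExistP

open Polynomial IsDedekindDomain NumberField Fermat.Agent.S55lib Fermat.Agent.S55lib.Dev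
  Fermat.Agent.S55lib.Places Fermat.Agent.S55lib.SecondIneq

variable {p : ℕ} [hp : Fact p.Prime]

/-- (U), unconditional -/
theorem unitsPowStatement (hp2 : p ≠ 2) : UnitsPowStatement p :=
  fun F _ _ hζ S => relIndex_pow_unitsS_completionData hp2 F hζ S

/-- the norm index of a Kummer layer is not `1`, unconditional -/
theorem normIndexStatement (hp2 : p ≠ 2) : NormIndexStatement p :=
  normIndexStatement_of_firstIneq hp.out.ne_one (Places.firstIneqStatement hp2)

/-- **the norm index of a Kummer layer is exactly `p`** -/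
theorem index_norm_eq (hp2 : p ≠ 2) (F M : Type) [Field F] [Field M] [NumberField F]
    [NumberField M] [Algebra F M] [IsGalois F M] (σ : M ≃ₐ[F] M) (h : IsKummerLayer p F M σ) :
    (Dev.principal F ⊔ (Idele.norm (IsScalarTower.toAlgHom ℚ F M)).range).index = p := by
  have h1 := index_norm_dvd_of_isKummerLayer p hp2 (unitsPowStatement hp2) (normIndexStatement hp2)
    F M σ h
  rcases (Nat.dvd_prime hp.out).mp h1 with h2 | h2
  · exact absurd (Subgroup.index_eq_one.mp h2) (normIndexStatement hp2 F M σ h)
  · exact h2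

variable {F : Type} [Field F] [NumberField F] {ζ : F} (hζ : IsPrimitiveRoot ζ p)

include hζ in
/-- **K10, unconditional: the existence theorem mod `p` in the `Dev.Idele` model.** -/
theorem existence_mod_p_idele_uncond (hp2 : p ≠ 2) (T : Set Nat.Primes) (hT : T.Finite)
    (hpT : (⟨p, hp.out⟩ : Nat.Primes) ∈ T) (c : Dev.Idele F)
    (hc : ∀ a : Fˣ, a ∉ powSubgroup Fˣ p →
      (∀ q : Nat.Primes, q ∉ T → ∀ κ : Emb (q : ℕ) F, UnrCond p (a : F) κ) →
      ∃ (M : Type) (_ : Field M) (_ : NumberField M) (_ : Algebra F M) (_ : IsGalois F M)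
        (σ : M ≃ₐ[F] M) (α : M), IsKummerLayer p F M σ ∧ α ^ p = algebraMap F M (a : F) ∧
        c ∈ Dev.principal F ⊔ Dev.unitsOutside F T ⊔
          (Idele.norm (IsScalarTower.toAlgHom ℚ F M)).range) :
    c ∈ Dev.principal F ⊔ Dev.unitsOutside F T ⊔
      (powMonoidHom p : Dev.Idele F →* Dev.Idele F).range :=
  existence_mod_p_idele hζ hp2 (unitsPowStatement hp2) (normIndexStatement hp2) T hT hpT c hc

include hζ in
/-- the explicit description of the norm group of `F(a^{1/p})`, unconditional -/
theorem comap_normGroup_eq_uncond (hp2 : p ≠ 2) (a : Fˣ) (ha' : a ∉ powSubgroup Fˣ p)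
    (M : Type) [Field M] [NumberField M] [Algebra F M] [IsGalois F M] (σ : M ≃ₐ[F] M)
    (hσ : ∀ γ : M ≃ₐ[F] M, γ ∈ Subgroup.zpowers σ) (hcard : Nat.card (M ≃ₐ[F] M) = p)
    {α : M} (hα : α ^ p = algebraMap F M (a : F)) :
    (ExPData.normGroup (completionData F).U (completionData F).loc p (placesAbove F p) a).comap
        (ideleToLocal F) =
      Dev.principal F ⊔ (Idele.norm (IsScalarTower.toAlgHom ℚ F M)).range :=
  comap_normGroup_eq hζ hp2 (unitsPowStatement hp2) (normIndexStatement hp2) a ha' M σ hσ hcard hα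

end Fermat.Agent.S55lib.ExistP
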