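/-
S55 sprint, block K10 existence mod p (helper1).
**K10 on the class modules `𝒞_T(F) = Dev.ClassGrpS F T`** (the shape produced by the cohomological
side: `c_*(Bock χ_a) = 0` gives `incl c = ∏_{γ ∈ Gal(M_a/F)} γ • x` with `x ∈ 𝒞_T(M_a)`):
if `c ∈ 𝒞_T(F)` becomes a norm element in `𝒞_T(F(a^{1/p}))` for every `a ∈ Fˣ ∖ Fˣᵖ` unramified
outside `T`, then `c` is a `p`-th power in `𝒞_T(F)`.
-/
import Mathlib
import Fermat.Agent.S55lib.ExistP.Uncond
import Fermat.Agent.S55lib.Dev.DescentS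

set_option autoImplicit false

namespace Fermat.Agent.S55lib.ExistP

open Polynomial IsDedekindDomain NumberField Fermat.Agent.S55lib Fermat.Agent.S55lib.Dev
  Fermat.Agent.S55lib.Places Fermat.Agent.S55lib.SecondIneq

variable {p : ℕ} [hp : Fact p.Prime] {F : Type} [Field F] [NumberField F] {ζ : F}
  (hζ : IsPrimitiveRoot ζ p)

/-- a class which becomes a norm element upstairs is the class of a norm -/
theorem mem_of_incl_eq_prod_smul (T : Set Nat.Primes) (hT : T.Nonempty) (c₀ : Dev.Idele F)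
    (M : Type) [Field M] [NumberField M] [Algebra F M] [IsGalois F M] (x : ClassGrpS M T)
    (hx : ClassGrpS.incl (IsScalarTower.toAlgHom ℚ F M) T (QuotientGroup.mk c₀) =
      ∏ γ : M ≃ₐ[F] M, autToQ F γ • x) :
    c₀ ∈ Dev.principal F ⊔ Dev.unitsOutside F T ⊔
      (Idele.norm (IsScalarTower.toAlgHom ℚ F M)).range := by
  classical
  haveI : FiniteDimensional F M := Module.Finite.of_restrictScalars_finite ℚ F M
  obtain ⟨X, rfl⟩ := QuotientGroup.mk_surjective x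
  have h1 : (∏ γ : M ≃ₐ[F] M, autToQ F γ • (QuotientGroup.mk X : ClassGrpS M T)) =
      QuotientGroup.mk (∏ γ : M ≃ₐ[F] M, autToQ F γ • X) := by
    have := map_prod (QuotientGroup.mk' (principalUnits M T))
      (fun γ : M ≃ₐ[F] M => autToQ F γ • X) Finset.univ
    exact this.symm
  rw [h1, ← Idele.incl_norm F X, ← ClassGrpS.incl_mk] at hx
  have h2 := ClassGrpS.incl_injective F (M := M) hT hx
  rw [QuotientGroup.eq] at h2
  have h3 : c₀ = (c₀⁻¹ * Idele.norm (IsScalarTower.toAlgHom ℚ F M) X)⁻¹ *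
      Idele.norm (IsScalarTower.toAlgHom ℚ F M) X := by
    rw [mul_inv_rev, inv_inv, mul_comm _ c₀, mul_assoc, inv_mul_cancel, mul_one]
  rw [h3]
  exact Subgroup.mul_mem_sup (Subgroup.inv_mem _ h2) ⟨X, rfl⟩

include hζ in
/-- **K10 on `𝒞_T(F)`.** -/
theorem existence_mod_p_classGrpS (hp2 : p ≠ 2) (T : Set Nat.Primes) (hT : T.Finite)
    (hpT : (⟨p, hp.out⟩ : Nat.Primes) ∈ T) (c : ClassGrpS F T)
    (hc : ∀ a : Fˣ, a ∉ powSubgroup Fˣ p →
      (∀ q : Nat.Primes, q ∉ T → ∀ κ : Emb (q : ℕ) F, UnrCond p (a : F) κ) →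
      ∃ (M : Type) (_ : Field M) (_ : NumberField M) (_ : Algebra F M) (_ : IsGalois F M)
        (σ : M ≃ₐ[F] M) (α : M), IsKummerLayer p F M σ ∧ α ^ p = algebraMap F M (a : F) ∧
        ∃ x : ClassGrpS M T, ClassGrpS.incl (IsScalarTower.toAlgHom ℚ F M) T c =
          ∏ γ : M ≃ₐ[F] M, autToQ F γ • x) :
    ∃ c' : ClassGrpS F T, c' ^ p = c := by
  obtain ⟨c₀, rfl⟩ := QuotientGroup.mk_surjective c
  have hTne : T.Nonempty := ⟨_, hpT⟩
  have key := existence_mod_p_idele_uncond hζ hp2 T hT hpT c₀ (fun a ha' haunr => by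
    obtain ⟨M, i1, i2, i3, i4, σ, α, hlayer, hα, x, hx⟩ := hc a ha' haunr
    exact ⟨M, i1, i2, i3, i4, σ, α, hlayer, hα, mem_of_incl_eq_prod_smul T hTne c₀ M x hx⟩)
  obtain ⟨bw, hbw, yp, ⟨y, rfl⟩, hdec⟩ := Subgroup.mem_sup.mp key
  refine ⟨QuotientGroup.mk y, ?_⟩
  rw [← QuotientGroup.mk_pow, ← hdec]
  symm
  rw [QuotientGroup.eq]
  have : (bw * (powMonoidHom p) y)⁻¹ * y ^ p = bw⁻¹ := by
    rw [powMonoidHom_apply, mul_inv_rev, mul_assoc, mul_comm (bw⁻¹), ← mul_assoc,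
      inv_mul_cancel, one_mul]
  rw [this]
  exact Subgroup.inv_mem _ hbw

end Fermat.Agent.S55lib.ExistP
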