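/-
S55 sprint, block K10 existence mod p (helper1).
**Finite-level inputs for the surjectivity half of reciprocity mod `p`** (global CF4-surj):
* `finiteIndex_principalUnits_pow`: `𝒞_T(F)/p` is finite, i.e. `Fˣ · U^T · I(F)^p` has finite index;
* `unrCond_of_unramAt`: a Kummer layer `M/F` all of whose local fields at the primes `q ∉ T` have
  value group `q^ℤ` is `F(a^{1/p})` with `a ∈ U · F_κ^p` at all `κ` over `q ∉ T`;
* `unitsOutside_le_norm`, `index_principalUnits_norm_eq`: for such a layer the units outside `T` are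
  norms, and `[I(F) : Fˣ · U^T · N I(M)] = p` — in particular some class of `𝒞_T(F)` is not a norm
  from `𝒞_T(M)` (left non-degeneracy of the pairing).
-/
import Mathlib
import Fermat.Agent.S55lib.ExistP.ClassForm

set_option autoImplicit false

namespace Fermat.Agent.S55lib.ExistP

open Polynomial IsDedekindDomain NumberField Fermat.Agent.S55lib Fermat.Agent.S55lib.Dev
  Fermat.Agent.S55lib.Places Fermat.Agent.S55lib.SecondIneq Fermat.Agent.S55lib.FirstIneq

variable {p : ℕ} [hp : Fact p.Prime] {F : Type} [Field F] [NumberField F]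

omit hp in
/-- from the condition at the chosen embedding to the place-indexed model -/
theorem mem_sup_of_unrCond_embOf (hp0 : p ≠ 0) (v : HeightOneSpectrum (𝓞 F)) (a : Fˣ)
    (h : UnrCond p (a : F) (embOf v)) :
    (completionData F).loc v a ∈
      (completionData F).U v ⊔ powSubgroup ((completionData F).Fv v)ˣ p := by
  obtain ⟨u, hu, t, ht, hu1, hz⟩ := h
  have hκa : embOf v (a : F) ≠ 0 := (_root_.map_ne_zero _).mpr a.ne_zero
  have hu0 : u ≠ 0 := by
    rintro rfl
    rw [zero_mul] at hz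
    exact hκa hz
  have ht0 : t ≠ 0 := by
    rintro rfl
    rw [zero_pow hp0, mul_zero] at hz
    exact hκa hz
  set u' : ((completionData F).Fv v)ˣ :=
    Units.mk0 (⟨u, hu⟩ : localField (qOf v) F (embOf v)) (fun h0 => hu0 (congrArg Subtype.val h0))
    with hu'
  set t' : ((completionData F).Fv v)ˣ :=
    Units.mk0 (⟨t, ht⟩ : localField (qOf v) F (embOf v)) (fun h0 => ht0 (congrArg Subtype.val h0))
    with ht'
  have hdec : (completionData F).loc v a = u' * t' ^ p := by
    apply Units.ext
    apply Subtype.ext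
    have h1 : (((completionData F).loc v a : ((completionData F).Fv v)ˣ) :
        (completionData F).Fv v).1 = embOf v (a : F) := cv_loc v a
    rw [h1, hz]
    rfl
  rw [hdec]
  refine Subgroup.mul_mem_sup ?_ (mem_powSubgroup.mpr ⟨t', rfl⟩)
  rw [mem_U_iff_norm_cv]
  exact hu1

omit hp in
/-- **a Kummer layer with unramified local fields outside `T` is generated by an `a` with
`a ∈ U · F_κ^p` outside `T`** -/
theorem unrCond_of_unramAt (hp0 : p ≠ 0) (T : Set Nat.Primes) (M : Type) [Field M] [NumberField M]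
    [Algebra F M] {α : M} {a : Fˣ} (hα : α ^ p = algebraMap F M (a : F))
    (hur : ∀ q : Nat.Primes, q ∉ T → ∀ ι : Emb (q : ℕ) M,
      UnramAt (q : ℕ) (localField (q : ℕ) M ι))
    (q : Nat.Primes) (hq : q ∉ T) (κ : Emb (q : ℕ) F) : UnrCond p (a : F) κ := by
  obtain ⟨ι, rfl⟩ := Emb.res_surjective (q := (q : ℕ)) (IsScalarTower.toAlgHom ℚ F M) κ
  have hα0 : α ≠ 0 := by
    rintro rfl
    rw [zero_pow hp0] at hα
    exact (_root_.map_ne_zero _).mpr a.ne_zero hα.symm
  have hια0 : ι α ≠ 0 := (_root_.map_ne_zero _).mpr hα0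
  obtain ⟨n, hn⟩ := hur q hq ι (ι α) (map_mem_localField ι α) hια0
  apply unrCond_of_exists_global hp0
  refine ⟨((q : ℕ) : F) ^ n, ?_⟩
  have h1 : Emb.res (IsScalarTower.toAlgHom ℚ F M) ι (a : F) = (ι α) ^ p := by
    rw [Emb.res_apply, ← map_pow, hα]
    rfl
  have h2 : Emb.res (IsScalarTower.toAlgHom ℚ F M) ι (((q : ℕ) : F) ^ n) =
      ((q : ℕ) : PadicAlgCl (q : ℕ)) ^ n := by
    rw [map_zpow₀, map_natCast]
  have hq0 : ((q : ℕ) : ℝ) ≠ 0 := Nat.cast_ne_zero.mpr q.2.ne_zero
  rw [map_mul, map_pow, h1, h2, norm_mul, norm_pow, norm_pow, norm_zpow, hn,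
    norm_natCast_padicAlgCl, ← mul_pow, inv_zpow, mul_inv_cancel₀ (zpow_ne_zero n hq0), one_pow]

section Layer

variable {ζ : F} (hζ : IsPrimitiveRoot ζ p)

include hζ in
/-- **the units outside `T` are norms from a Kummer layer unramified outside `T`** -/
theorem unitsOutside_le_norm (hp2 : p ≠ 2) (T : Set Nat.Primes) (hT : T.Finite)
    (hpT : (⟨p, hp.out⟩ : Nat.Primes) ∈ T)
    (M : Type) [Field M] [NumberField M] [Algebra F M] [IsGalois F M] (σ : M ≃ₐ[F] M)
    (hlayer : IsKummerLayer p F M σ)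
    (hur : ∀ q : Nat.Primes, q ∉ T → ∀ ι : Emb (q : ℕ) M,
      UnramAt (q : ℕ) (localField (q : ℕ) M ι)) :
    Dev.unitsOutside F T ≤
      Dev.principal F ⊔ (Idele.norm (IsScalarTower.toAlgHom ℚ F M)).range := by
  haveI : FiniteDimensional F M := Module.Finite.of_restrictScalars_finite ℚ F M
  obtain ⟨-, a, α, hα, -, -, ha'⟩ := exists_kummer_generator p σ hlayer.gen hlayer.card hζ
  have hSp := placesAbove_subset_placesOver (F := F) p T hT hpT
  have haunr : ∀ v, v ∉ placesOver F T hT → (completionData F).loc v a ∈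
      (completionData F).U v ⊔ powSubgroup ((completionData F).Fv v)ˣ p := by
    intro v hv
    apply mem_sup_of_unrCond_embOf hp.out.ne_zero v a
    exact unrCond_of_unramAt hp.out.ne_zero T M hα hur (qPrimeOf F v)
      (fun h => hv ((mem_placesOver T hT v).mpr h)) (embOf v)
  intro W hW
  rw [← comap_normGroup_eq_uncond hζ hp2 a ha' M σ hlayer.gen hlayer.card hα]
  exact Subgroup.mem_sup_right
    (ideleToLocal_mem_localCond_of_mem_unitsOutside T hT (placesAbove F p) hSp a haunr W hW)

include hζ in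
/-- **`[I(F) : Fˣ · U^T · N I(M)] = p`** for a Kummer layer unramified outside `T` -/
theorem index_principalUnits_norm_eq (hp2 : p ≠ 2) (T : Set Nat.Primes) (hT : T.Finite)
    (hpT : (⟨p, hp.out⟩ : Nat.Primes) ∈ T)
    (M : Type) [Field M] [NumberField M] [Algebra F M] [IsGalois F M] (σ : M ≃ₐ[F] M)
    (hlayer : IsKummerLayer p F M σ)
    (hur : ∀ q : Nat.Primes, q ∉ T → ∀ ι : Emb (q : ℕ) M,
      UnramAt (q : ℕ) (localField (q : ℕ) M ι)) :
    (Dev.principal F ⊔ Dev.unitsOutside F T ⊔
      (Idele.norm (IsScalarTower.toAlgHom ℚ F M)).range).index = p := by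
  have h1 := unitsOutside_le_norm hζ hp2 T hT hpT M σ hlayer hur
  have h2 : Dev.principal F ⊔ Dev.unitsOutside F T ⊔
      (Idele.norm (IsScalarTower.toAlgHom ℚ F M)).range =
      Dev.principal F ⊔ (Idele.norm (IsScalarTower.toAlgHom ℚ F M)).range := by
    apply le_antisymm
    · exact sup_le (sup_le le_sup_left h1) le_sup_right
    · exact sup_le (le_sup_left.trans le_sup_left) le_sup_right
  rw [h2]
  exact index_norm_eq hp2 F M σ hlayer

include hζ in
/-- **left non-degeneracy**: for a Kummer layer unramified outside `T`, some class of `𝒞_T(F)` does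
not become a norm element in `𝒞_T(M)`. -/
theorem exists_classGrpS_not_norm (hp2 : p ≠ 2) (T : Set Nat.Primes) (hT : T.Finite)
    (hpT : (⟨p, hp.out⟩ : Nat.Primes) ∈ T)
    (M : Type) [Field M] [NumberField M] [Algebra F M] [IsGalois F M] (σ : M ≃ₐ[F] M)
    (hlayer : IsKummerLayer p F M σ)
    (hur : ∀ q : Nat.Primes, q ∉ T → ∀ ι : Emb (q : ℕ) M,
      UnramAt (q : ℕ) (localField (q : ℕ) M ι)) :
    ∃ c : ClassGrpS F T, ∀ x : ClassGrpS M T,
      ClassGrpS.incl (IsScalarTower.toAlgHom ℚ F M) T c ≠ ∏ γ : M ≃ₐ[F] M, autToQ F γ • x := by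
  have hidx := index_principalUnits_norm_eq hζ hp2 T hT hpT M σ hlayer hur
  have hne : Dev.principal F ⊔ Dev.unitsOutside F T ⊔
      (Idele.norm (IsScalarTower.toAlgHom ℚ F M)).range ≠ ⊤ := by
    intro htop
    rw [htop, Subgroup.index_top] at hidx
    exact hp.out.ne_one hidx.symm
  obtain ⟨c₀, hc₀⟩ : ∃ c₀ : Dev.Idele F, c₀ ∉ Dev.principal F ⊔ Dev.unitsOutside F T ⊔
      (Idele.norm (IsScalarTower.toAlgHom ℚ F M)).range := by
    by_contra hcon
    push Not at hcon
    exact hne (eq_top_iff.mpr fun x _ => hcon x)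
  exact ⟨QuotientGroup.mk c₀, fun x hx =>
    hc₀ (mem_of_incl_eq_prod_smul T ⟨_, hpT⟩ c₀ M x hx)⟩

end Layer

section Finite

variable {ζ : F} (hζ : IsPrimitiveRoot ζ p)

include hζ in
/-- **`𝒞_T(F)/p` is finite**: `Fˣ · U^T · I(F)^p` has finite index in `I(F)`. -/
theorem index_principalUnits_pow_ne_zero (hp2 : p ≠ 2) (T : Set Nat.Primes) (hT : T.Finite)
    (hpT : (⟨p, hp.out⟩ : Nat.Primes) ∈ T) :
    (Dev.principal F ⊔ Dev.unitsOutside F T ⊔
      (powMonoidHom p : Dev.Idele F →* Dev.Idele F).range).index ≠ 0 := by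
  classical
  have hSp := placesAbove_subset_placesOver (F := F) p T hT hpT
  obtain ⟨S₀, hS₀⟩ := (completionData F).exists_finset_idele_le
  have D := exPData_numberField hζ hp2 (unitsPowStatement hp2) (normIndexStatement hp2)
  set S := placesOver F T hT ∪ S₀ with hS
  have h4 := hS₀ S Finset.subset_union_right
  have hidx := D.relIndex_condS_sup_principal S (hSp.trans Finset.subset_union_left) h4
  have hle : (baseGroup (completionData F).U (completionData F).loc p S).comap (ideleToLocal F) ≤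
      Dev.principal F ⊔ Dev.unitsOutside F T ⊔
        (powMonoidHom p : Dev.Idele F →* Dev.Idele F).range := by
    intro x hx
    apply mem_of_ideleToLocal_mem_targetGroup hp.out.pos T hT x
    exact ExPData.baseGroup_le_targetGroup (placesOver F T hT) S Finset.subset_union_left hx
  have h1 : ((baseGroup (completionData F).U (completionData F).loc p S).comap
      (ideleToLocal F)).index = p ^ (S.card + InfinitePlace.nrComplexPlaces F) := by
    rw [Subgroup.index_comap, range_ideleToLocal]
    exact hidx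
  have h2 := Subgroup.index_dvd_of_le hle
  rw [h1] at h2
  intro h0
  rw [h0, zero_dvd_iff] at h2
  exact (pow_ne_zero _ hp.out.ne_zero) h2

end Finite

end Fermat.Agent.S55lib.ExistP
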