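/-
S55 sprint, block K10 existence mod p (helper1).
**The field-level package for the global (CF4)**, stated purely in `(G_ℚ, CSfull S, fixing subgroups)`:
for `K ⊂ ℚ_S` finite (not necessarily normal over `ℚ`) containing `ζ_p`, `p ∈ S` odd,
* `(E-field)`: an invariant `c ∈ C_S^{G_K}` which is a norm from every cyclic layer `M/K` of degree `p`
  inside `ℚ_S` is `p` times an invariant;
* `(N-field)`: for every such layer some invariant is not a norm;
* `(F-field)`: `C_S^{G_K} / p` is finite.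
The bridge is the class map `clsAt : 𝒞_S(K) → CSfull S` for arbitrary levels `K ⊂ ℚ_S`
(injective, image the `G_K`-invariants), built from helper4's `clsLevelHom` at normal levels and
Galois descent.
-/
import Mathlib
import Fermat.Agent.S55lib.ExistP.SurjInputs
import Fermat.Agent.S55lib.Iface.ClassInvariants
import Fermat.Agent.S55lib.Iface.KummerUnr

set_option autoImplicit false
set_option linter.style.haveILetI false
set_option linter.unusedSectionVars false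

noncomputable section

namespace Fermat.Agent.S55lib.ExistP

open IntermediateField Fermat.Agent.S55lib Fermat.Agent.S55lib.Dev

/-- every subfield of `ℚ̄` is algebraic over `ℚ` (instance for the `DivisionRing.toRatAlgebra` structure) -/
instance isAlgebraic_fieldQ (K : FieldQ) : Algebra.IsAlgebraic ℚ ↥K := by
  haveI : Algebra.IsAlgebraic ℚ Qbar := AlgebraicClosure.isAlgebraic ℚ
  exact IntermediateField.isAlgebraic_tower_bot (S := K)

/-! ### Functoriality of `incl` -/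

section Functoriality

variable {F M N : Type*} [Field F] [Field M] [Field N] [Algebra ℚ F] [Algebra ℚ M] [Algebra ℚ N]
  [Algebra.IsAlgebraic ℚ F] [Algebra.IsAlgebraic ℚ M] [Algebra.IsAlgebraic ℚ N]
  (φ : F →ₐ[ℚ] M) (ψ : M →ₐ[ℚ] N)

theorem idele_incl_comp (x : Idele F) :
    Idele.incl (ψ.comp φ) x = Idele.incl ψ (Idele.incl φ x) := by
  apply Idele.ext
  intro q
  ext ι
  rfl

theorem classGrpS_incl_comp (T : Set Nat.Primes) (c : ClassGrpS F T) :
    ClassGrpS.incl (ψ.comp φ) T c = ClassGrpS.incl ψ T (ClassGrpS.incl φ T c) := by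
  obtain ⟨x, rfl⟩ := QuotientGroup.mk_surjective c
  rw [ClassGrpS.incl_mk, ClassGrpS.incl_mk, ClassGrpS.incl_mk, idele_incl_comp]

end Functoriality

/-- the inclusion of levels `K ≤ L` (as an algebra map for the `DivisionRing.toRatAlgebra` structures;
it is `IsScalarTower.toAlgHom ℚ K L` for the algebra structure `(inclusion h).toRingHom.toAlgebra`) -/
def inclQ {K L : FieldQ} (h : K ≤ L) : ↥K →ₐ[ℚ] ↥L :=
  letI : Algebra ↥K ↥L := (IntermediateField.inclusion h).toRingHom.toAlgebra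
  haveI : IsScalarTower ℚ ↥K ↥L := IsScalarTower.of_algebraMap_eq (fun x => by
    rw [eq_ratCast, eq_ratCast, map_ratCast])
  IsScalarTower.toAlgHom ℚ ↥K ↥L

@[simp] theorem inclQ_coe {K L : FieldQ} (h : K ≤ L) (x : ↥K) : ((inclQ h x : ↥L) : Qbar) = x := rfl

theorem inclQ_comp {K L N : FieldQ} (h : K ≤ L) (h' : L ≤ N) :
    (inclQ h').comp (inclQ h) = inclQ (h.trans h') := rfl

variable (S : Finset Nat.Primes)

/-! ### The class map at an arbitrary level -/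

section ClsAt

/-- the class map `𝒞_S(K) → CSfull S` through a normal level `L ⊇ K` -/
def clsVia (K L : FieldQ) [Normal ℚ L] (hKL : K ≤ L) (hL : L.IsUnramifiedOutside S)
    (hS : S.Nonempty) : ClassGrpS (↥K) (S : Set Nat.Primes) →* Multiplicative (CSfull S) :=
  (clsLevelHom S L hL hS).comp (ClassGrpS.incl (inclQ hKL) (S : Set Nat.Primes))

theorem clsVia_apply (K L : FieldQ) [Normal ℚ L] (hKL : K ≤ L) (hL : L.IsUnramifiedOutside S)
    (hS : S.Nonempty) (c : ClassGrpS (↥K) (S : Set Nat.Primes)) :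
    clsVia S K L hKL hL hS c =
      clsLevelHom S L hL hS (ClassGrpS.incl (inclQ hKL) (S : Set Nat.Primes) c) :=
  rfl

/-- the class map through a larger normal level -/
theorem clsVia_of_le (K L L' : FieldQ) [Normal ℚ L] [Normal ℚ L'] (hKL : K ≤ L) (hLL' : L ≤ L')
    (hL : L.IsUnramifiedOutside S) (hL' : L'.IsUnramifiedOutside S) (hS : S.Nonempty)
    (c : ClassGrpS (↥K) (S : Set Nat.Primes)) :
    clsVia S K L' (hKL.trans hLL') hL' hS c = clsVia S K L hKL hL hS c := by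
  have h1 := clsLevelHom_incl S L L' hL hL' (inclQ hLL') (fun x => rfl) hS
    (ClassGrpS.incl (inclQ hKL) (S : Set Nat.Primes) c)
  have h2 : ClassGrpS.incl (inclQ (hKL.trans hLL')) (S : Set Nat.Primes) c =
      ClassGrpS.incl (inclQ hLL') (S : Set Nat.Primes)
        (ClassGrpS.incl (inclQ hKL) (S : Set Nat.Primes) c) :=
    classGrpS_incl_comp (inclQ hKL) (inclQ hLL') _ c
  rw [clsVia_apply, clsVia_apply, h2]
  exact h1

/-- independence of the normal level -/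
theorem clsVia_eq (K L₁ L₂ : FieldQ) [Normal ℚ L₁] [Normal ℚ L₂] (h₁ : K ≤ L₁) (h₂ : K ≤ L₂)
    (hL₁ : L₁.IsUnramifiedOutside S) (hL₂ : L₂.IsUnramifiedOutside S) (hS : S.Nonempty)
    (c : ClassGrpS (↥K) (S : Set Nat.Primes)) :
    clsVia S K L₁ h₁ hL₁ hS c = clsVia S K L₂ h₂ hL₂ hS c := by
  obtain ⟨L₃, hL₃', hle, hN⟩ := (LevelClass.unr S).exists_normal (F := L₁ ⊔ L₂) (hL₁.sup hL₂)
  have hL₃ : L₃.IsUnramifiedOutside S := hL₃'
  haveI := hN
  rw [← clsVia_of_le S K L₁ L₃ h₁ (le_sup_left.trans hle) hL₁ hL₃ hS,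
    ← clsVia_of_le S K L₂ L₃ h₂ (le_sup_right.trans hle) hL₂ hL₃ hS]

/-- **the class map `𝒞_S(K) → CSfull S`** at an arbitrary level `K ⊂ ℚ_S` -/
def clsAt (K : FieldQ) (hK : K.IsUnramifiedOutside S) (hS : S.Nonempty) :
    ClassGrpS (↥K) (S : Set Nat.Primes) →* Multiplicative (CSfull S) :=
  haveI : Normal ℚ ↥((LevelClass.unr S).exists_normal (F := K) hK).choose :=
    ((LevelClass.unr S).exists_normal (F := K) hK).choose_spec.2.2
  clsVia S K ((LevelClass.unr S).exists_normal (F := K) hK).choose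
    ((LevelClass.unr S).exists_normal (F := K) hK).choose_spec.2.1
    ((LevelClass.unr S).exists_normal (F := K) hK).choose_spec.1 hS

theorem clsAt_eq_clsVia (K : FieldQ) (hK : K.IsUnramifiedOutside S) (hS : S.Nonempty)
    (L : FieldQ) [Normal ℚ L] (hKL : K ≤ L) (hL : L.IsUnramifiedOutside S)
    (c : ClassGrpS (↥K) (S : Set Nat.Primes)) :
    clsAt S K hK hS c = clsVia S K L hKL hL hS c := by
  haveI : Normal ℚ ↥((LevelClass.unr S).exists_normal (F := K) hK).choose :=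
    ((LevelClass.unr S).exists_normal (F := K) hK).choose_spec.2.2
  exact clsVia_eq S K _ L _ hKL _ hL hS c

/-- compatibility with the inclusion of levels -/
theorem clsAt_incl (K M : FieldQ) (hKM : K ≤ M) (hK : K.IsUnramifiedOutside S)
    (hM : M.IsUnramifiedOutside S) (hS : S.Nonempty) (c : ClassGrpS (↥K) (S : Set Nat.Primes)) :
    clsAt S M hM hS (ClassGrpS.incl (inclQ hKM) (S : Set Nat.Primes) c) =
      clsAt S K hK hS c := by
  obtain ⟨L, hL', hML, hN⟩ := (LevelClass.unr S).exists_normal (F := M) hM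
  have hL : L.IsUnramifiedOutside S := hL'
  haveI := hN
  have e1 := clsAt_eq_clsVia S M hM hS L hML hL
    (ClassGrpS.incl (inclQ hKM) (S : Set Nat.Primes) c)
  have e2 := clsAt_eq_clsVia S K hK hS L (hKM.trans hML) hL c
  have h2 : ClassGrpS.incl (inclQ (hKM.trans hML)) (S : Set Nat.Primes) c =
      ClassGrpS.incl (inclQ hML) (S : Set Nat.Primes)
        (ClassGrpS.incl (inclQ hKM) (S : Set Nat.Primes) c) :=
    classGrpS_incl_comp (inclQ hKM) (inclQ hML) _ c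
  refine e1.trans (Eq.trans ?_ e2.symm)
  exact congrArg (clsLevelHom S L hL hS) h2.symm

/-- the standard instances for a tower `K ≤ L` with `L` normal over `ℚ` -/
theorem tower_instances (K L : FieldQ) [Normal ℚ L] (hKL : K ≤ L) [FiniteDimensional ℚ ↥L] :
    letI : Algebra ↥K ↥L := (IntermediateField.inclusion hKL).toRingHom.toAlgebra
    IsScalarTower ℚ ↥K ↥L ∧ FiniteDimensional ↥K ↥L ∧ IsGalois ↥K ↥L := by
  letI alg : Algebra ↥K ↥L := (IntermediateField.inclusion hKL).toRingHom.toAlgebra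
  haveI tower : IsScalarTower ℚ ↥K ↥L := IsScalarTower.of_algebraMap_eq (fun x => by
    rw [eq_ratCast, eq_ratCast, map_ratCast])
  haveI : FiniteDimensional ↥K ↥L := FiniteDimensional.right ℚ ↥K ↥L
  haveI : IsGalois ℚ ↥L := ⟨⟩
  exact ⟨tower, inferInstance, IsGalois.tower_top_of_isGalois ℚ ↥K ↥L⟩

/-- the class map is injective -/
theorem clsAt_injective (K : FieldQ) (hK : K.IsUnramifiedOutside S) (hS : S.Nonempty) :
    Function.Injective (clsAt S K hK hS) := by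
  obtain ⟨L, hL', hKL, hN⟩ := (LevelClass.unr S).exists_normal (F := K) hK
  have hL : L.IsUnramifiedOutside S := hL'
  haveI := hN
  haveI : FiniteDimensional ℚ ↥L := hL.1
  letI alg : Algebra ↥K ↥L := (IntermediateField.inclusion hKL).toRingHom.toAlgebra
  obtain ⟨i1, i2, i3⟩ := tower_instances K L hKL
  haveI := i1; haveI := i2; haveI := i3
  have hS' : (S : Set Nat.Primes).Nonempty := hS
  intro c c' h
  rw [clsAt_eq_clsVia S K hK hS L hKL hL, clsAt_eq_clsVia S K hK hS L hKL hL, clsVia_apply,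
    clsVia_apply] at h
  exact ClassGrpS.incl_injective (↥K) (M := ↥L) hS' (clsLevelHom_injective S L hL hS h)

/-- the image of the class map consists of `Gal(ℚ̄/K)`-invariants -/
theorem clsAt_invariant (K : FieldQ) (hK : K.IsUnramifiedOutside S) (hS : S.Nonempty)
    (c : ClassGrpS (↥K) (S : Set Nat.Primes)) (s : GQ) (hs : s ∈ K.fixingSubgroup) :
    (CSfull S).ρ s (clsAt S K hK hS c).toAdd = (clsAt S K hK hS c).toAdd := by
  obtain ⟨L, hL', hKL, hN⟩ := (LevelClass.unr S).exists_normal (F := K) hK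
  have hL : L.IsUnramifiedOutside S := hL'
  haveI := hN
  have e1 := clsAt_eq_clsVia S K hK hS L hKL hL c
  have h1 := ClassGrpS.incl_smul (inclQ hKL) (S : Set Nat.Primes)
    (1 : ↥K ≃ₐ[ℚ] ↥K) (resL L s) (fun x => by
      apply Subtype.ext
      rw [resL_apply]
      exact ((IntermediateField.mem_fixingSubgroup_iff _ s).1 hs _ x.2).symm) c
  rw [one_smul] at h1
  have h2 := clsLevelHom_smul S L hL hS s
    (ClassGrpS.incl (inclQ hKL) (S : Set Nat.Primes) c)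
  rw [← h1] at h2
  rw [e1]
  exact h2.symm

/-- **every `Gal(ℚ̄/K)`-invariant of `CSfull S` is a class of `𝒞_S(K)`** -/
theorem exists_clsAt_eq_of_invariant (K : FieldQ) (hK : K.IsUnramifiedOutside S) (hS : S.Nonempty)
    (c : CSfull S) (hc : ∀ s ∈ K.fixingSubgroup, (CSfull S).ρ s c = c) :
    ∃ c' : ClassGrpS (↥K) (S : Set Nat.Primes), (clsAt S K hK hS c').toAdd = c := by
  obtain ⟨L, hL', hKL, hN⟩ := (LevelClass.unr S).exists_normal (F := K) hK
  have hL : L.IsUnramifiedOutside S := hL'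
  haveI := hN
  haveI : FiniteDimensional ℚ ↥L := hL.1
  letI alg : Algebra ↥K ↥L := (IntermediateField.inclusion hKL).toRingHom.toAlgebra
  obtain ⟨i1, i2, i3⟩ := tower_instances K L hKL
  haveI := i1; haveI := i2; haveI := i3
  have hS' : (S : Set Nat.Primes).Nonempty := hS
  obtain ⟨cL, hcL⟩ := exists_clsLevelHom_eq_of_invariant S L hL hS c (fun s hs =>
    hc s (IntermediateField.fixingSubgroup_antitone hKL hs))
  have hinv : ∀ γ : ↥L ≃ₐ[↥K] ↥L, autToQ ↥K γ • cL = cL := by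
    intro γ
    obtain ⟨s, hs⟩ := resL_surjective L (autToQ ↥K γ)
    have hsK : s ∈ K.fixingSubgroup := by
      rw [IntermediateField.mem_fixingSubgroup_iff]
      intro x hx
      have h1 := resL_apply L s ⟨x, hKL hx⟩
      rw [hs, autToQ_apply] at h1
      have h2 : γ (⟨x, hKL hx⟩ : ↥L) = ⟨x, hKL hx⟩ := γ.commutes ⟨x, hx⟩
      rw [h2] at h1
      exact h1.symm
    apply clsLevelHom_injective S L hL hS
    apply Multiplicative.toAdd.injective
    rw [← hs, clsLevelHom_smul, hcL]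
    exact hc s hsK
  obtain ⟨c', hc'⟩ := ClassGrpS.exists_incl_eq_of_invariant_of_unramAt (F := ↥K) (M := ↥L) hS'
    (fun r hr ι => unramAt_localField S L hL r (by simpa using hr) ι) _ hinv
  refine ⟨c', ?_⟩
  rw [clsAt_eq_clsVia S K hK hS L hKL hL, clsVia_apply]
  rw [← hcL, ← hc']
  rfl

end ClsAt

/-! ### Layers -/

section Layer

/-- a cyclic layer `M/K` of degree `p` (for the algebra structure `(inclusion hKM).toRingHom.toAlgebra`) -/
def IsCyclicLayer (p : ℕ) (K M : FieldQ) (hKM : K ≤ M) : Prop :=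
  letI : Algebra ↥K ↥M := (IntermediateField.inclusion hKM).toRingHom.toAlgebra
  IsGalois ↥K ↥M ∧ Nat.card (↥M ≃ₐ[↥K] ↥M) = p

/-- the restriction of `σ ∈ Gal(ℚ̄/K)` to a normal extension `M/K` -/
theorem exists_restrict {K M : FieldQ} (hKM : K ≤ M) (σ : GQ) (hσ : σ ∈ K.fixingSubgroup) :
    letI : Algebra ↥K ↥M := (IntermediateField.inclusion hKM).toRingHom.toAlgebra
    Normal ↥K ↥M → ∃ γ : ↥M ≃ₐ[↥K] ↥M, ∀ x : ↥M, ((γ x : ↥M) : Qbar) = σ (x : Qbar) := by
  letI alg : Algebra ↥K ↥M := (IntermediateField.inclusion hKM).toRingHom.toAlgebra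
  intro hN
  haveI : IsScalarTower ↥K ↥M Qbar := IsScalarTower.of_algebraMap_eq (fun x => rfl)
  refine ⟨(IntermediateField.fixingSubgroupEquiv K ⟨σ, hσ⟩).restrictNormal ↥M, fun x => ?_⟩
  exact AlgEquiv.restrictNormal_commutes (IntermediateField.fixingSubgroupEquiv K ⟨σ, hσ⟩) ↥M x

variable (S : Finset Nat.Primes)

/-- equivariance of the class map along an automorphism of `M` induced by `σ ∈ G_ℚ` -/
theorem clsAt_smul (M : FieldQ) (hM : M.IsUnramifiedOutside S) (hS : S.Nonempty) (σ : GQ)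
    (γ : ↥M ≃ₐ[ℚ] ↥M) (hγ : ∀ x : ↥M, ((γ x : ↥M) : Qbar) = σ (x : Qbar))
    (y : ClassGrpS (↥M) (S : Set Nat.Primes)) :
    (clsAt S M hM hS (γ • y)).toAdd = (CSfull S).ρ σ (clsAt S M hM hS y).toAdd := by
  obtain ⟨L, hL', hML, hN⟩ := (LevelClass.unr S).exists_normal (F := M) hM
  have hL : L.IsUnramifiedOutside S := hL'
  haveI := hN
  have e1 := clsAt_eq_clsVia S M hM hS L hML hL y
  have e2 := clsAt_eq_clsVia S M hM hS L hML hL (γ • y)
  have h1 := ClassGrpS.incl_smul (inclQ hML) (S : Set Nat.Primes) γ (resL L σ) (fun x => by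
      apply Subtype.ext
      rw [resL_apply]
      exact hγ x) y
  have h2 := clsLevelHom_smul S L hL hS σ (ClassGrpS.incl (inclQ hML) (S : Set Nat.Primes) y)
  rw [← h1] at h2
  rw [e1, e2]
  exact h2

/-- in a group of prime order `p`, the powers `γ^0, …, γ^{p-1}` of a non-trivial element enumerate
the group -/
theorem prod_univ_eq_prod_range_pow {Γ : Type*} [Group Γ] [Fintype Γ] {p : ℕ} [hp : Fact p.Prime]
    (hcard : Nat.card Γ = p) (γ : Γ) (hγ : γ ≠ 1) {A : Type*} [CommMonoid A] (f : Γ → A) :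
    ∏ τ : Γ, f τ = ∏ i ∈ Finset.range p, f (γ ^ i) := by
  classical
  have hord : orderOf γ = p := by
    have h1 : orderOf γ ∣ p := by
      rw [← hcard]; exact orderOf_dvd_natCard γ
    rcases (Nat.dvd_prime hp.out).1 h1 with h | h
    · exact absurd (orderOf_eq_one_iff.1 h) hγ
    · exact h
  have hinj : Set.InjOn (fun i : ℕ => γ ^ i) (Finset.range p : Set ℕ) := by
    intro i hi j hj hij
    have hi' : i < orderOf γ := by rw [hord]; exact Finset.mem_range.mp hi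
    have hj' : j < orderOf γ := by rw [hord]; exact Finset.mem_range.mp hj
    exact pow_injOn_Iio_orderOf hi' hj' hij
  have himg : (Finset.range p).image (fun i : ℕ => γ ^ i) = Finset.univ := by
    apply Finset.eq_univ_of_card
    rw [Finset.card_image_of_injOn hinj, Finset.card_range, ← Nat.card_eq_fintype_card, hcard]
  rw [← himg, Finset.prod_image hinj]

/-- **(CONV)** a relation `c = ∑_{i<p} σ^i x` in `CSfull S`, with `c` a class of `𝒞_S(K)` and `x` invariant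
under `Gal(ℚ̄/M)` for a cyclic layer `M/K`, is a norm relation in `𝒞_S(M)` -/
theorem exists_incl_eq_prod_of_eq_sum {p : ℕ} [hp : Fact p.Prime] {K M : FieldQ} (hKM : K ≤ M)
    (hK : K.IsUnramifiedOutside S) (hM : M.IsUnramifiedOutside S) (hS : S.Nonempty)
    (hcyc : IsCyclicLayer p K M hKM) (cK : ClassGrpS (↥K) (S : Set Nat.Primes)) (σ : GQ)
    (hσK : σ ∈ K.fixingSubgroup) (hσM : σ ∉ M.fixingSubgroup) (x : CSfull S)
    (hx : ∀ s ∈ M.fixingSubgroup, (CSfull S).ρ s x = x)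
    (h : (clsAt S K hK hS cK).toAdd = ∑ i ∈ Finset.range p, (CSfull S).ρ (σ ^ i) x) :
    letI : Algebra ↥K ↥M := (IntermediateField.inclusion hKM).toRingHom.toAlgebra
    ∀ [Fintype (↥M ≃ₐ[↥K] ↥M)], ∃ xM : ClassGrpS (↥M) (S : Set Nat.Primes),
      ClassGrpS.incl (inclQ hKM) (S : Set Nat.Primes) cK = ∏ γ : ↥M ≃ₐ[↥K] ↥M, autToQ ↥K γ • xM := by
  letI alg : Algebra ↥K ↥M := (IntermediateField.inclusion hKM).toRingHom.toAlgebra
  intro hfin
  obtain ⟨hgal, hcard⟩ := hcyc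
  haveI := hgal
  obtain ⟨γ, hγ⟩ := exists_restrict hKM σ hσK inferInstance
  have hγ1 : γ ≠ 1 := by
    rintro rfl
    apply hσM
    rw [IntermediateField.mem_fixingSubgroup_iff]
    intro y hy
    exact (hγ ⟨y, hy⟩).symm
  obtain ⟨xM, hxM⟩ := exists_clsAt_eq_of_invariant S M hM hS x hx
  refine ⟨xM, ?_⟩
  have hpow : ∀ i : ℕ, ∀ y : ↥M, ((((autToQ ↥K γ) ^ i) y : ↥M) : Qbar) = (σ ^ i) (y : Qbar) := by
    intro i
    induction i with
    | zero => intro y; rfl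
    | succ n ih =>
      intro y
      rw [pow_succ, pow_succ, AlgEquiv.mul_apply, AlgEquiv.mul_apply, ih, autToQ_apply, hγ]
  have hterm : ∀ i : ℕ, (CSfull S).ρ (σ ^ i) x =
      (clsAt S M hM hS (((autToQ ↥K γ) ^ i) • xM)).toAdd := by
    intro i
    rw [clsAt_smul S M hM hS (σ ^ i) ((autToQ ↥K γ) ^ i) (hpow i) xM, hxM]
  have hsum : (clsAt S K hK hS cK).toAdd =
      (clsAt S M hM hS (∏ i ∈ Finset.range p, ((autToQ ↥K γ) ^ i) • xM)).toAdd := by
    rw [h, map_prod, toAdd_prod]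
    exact Finset.sum_congr rfl (fun i _ => hterm i)
  rw [← clsAt_incl S K M hKM hK hM hS cK] at hsum
  have h3 := clsAt_injective S M hM hS (Multiplicative.toAdd.injective hsum)
  rw [h3, prod_univ_eq_prod_range_pow hcard γ hγ1]
  exact Finset.prod_congr rfl (fun i _ => by rw [map_pow])

/-- the local fields of a level `M ⊂ ℚ_S` (not necessarily normal) at `q ∉ S` have value group `q^ℤ` -/
theorem unramAt_localField_of_unr (M : FieldQ) (hM : M.IsUnramifiedOutside S) (q : Nat.Primes)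
    (hq : q ∉ S) (ι : Emb (q : ℕ) ↥M) : FirstIneq.UnramAt (q : ℕ) (localField (q : ℕ) ↥M ι) := by
  obtain ⟨L, hL', hML, hN⟩ := (LevelClass.unr S).exists_normal (F := M) hM
  have hL : L.IsUnramifiedOutside S := hL'
  haveI := hN
  obtain ⟨ι', rfl⟩ := Emb.res_surjective (q := (q : ℕ)) (inclQ hML) ι
  refine (unramAt_localField S L hL q hq ι').mono (q : ℕ) ?_
  unfold localField
  apply IntermediateField.adjoin.mono
  rintro _ ⟨x, rfl⟩
  exact ⟨inclQ hML x, rfl⟩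

/-- a level is a number field -/
theorem numberField_of_unr {M : FieldQ} (hM : M.IsUnramifiedOutside S) : NumberField ↥M :=
  { to_charZero := inferInstance, to_finiteDimensional := hM.1 }

/-- **(N-field)** for every cyclic layer `M/K` of degree `p` inside `ℚ_S` some invariant of `Gal(ℚ̄/K)` is not a
norm from the invariants of `Gal(ℚ̄/M)`. -/
theorem not_norm_field {p : ℕ} [hp : Fact p.Prime] (hp2 : p ≠ 2)
    (hpS : (⟨p, hp.out⟩ : Nat.Primes) ∈ S) (K : FieldQ) (hK : K.IsUnramifiedOutside S)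
    (ζ : ↥K) (hζ : IsPrimitiveRoot ζ p) (M : FieldQ) (hKM : K ≤ M) (hM : M.IsUnramifiedOutside S)
    (hcyc : IsCyclicLayer p K M hKM) :
    ∃ c : CSfull S, (∀ s ∈ K.fixingSubgroup, (CSfull S).ρ s c = c) ∧
      ∀ σ ∈ K.fixingSubgroup, σ ∉ M.fixingSubgroup → ∀ x : CSfull S,
        (∀ s ∈ M.fixingSubgroup, (CSfull S).ρ s x = x) →
        c ≠ ∑ i ∈ Finset.range p, (CSfull S).ρ (σ ^ i) x := by
  classical
  have hS : S.Nonempty := ⟨_, hpS⟩
  haveI : NumberField ↥K := numberField_of_unr S hK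
  haveI : NumberField ↥M := numberField_of_unr S hM
  letI alg : Algebra ↥K ↥M := (IntermediateField.inclusion hKM).toRingHom.toAlgebra
  have hcyc' := hcyc
  obtain ⟨hgal, hcard⟩ := hcyc'
  haveI := hgal
  -- a generator
  haveI : Fact (Nat.card (↥M ≃ₐ[↥K] ↥M)).Prime := ⟨by rw [hcard]; exact hp.out⟩
  haveI : IsCyclic (↥M ≃ₐ[↥K] ↥M) := isCyclic_of_prime_card rfl
  obtain ⟨γ₀, hγ₀⟩ := IsCyclic.exists_generator (α := ↥M ≃ₐ[↥K] ↥M)
  have hlayer : IsKummerLayer p ↥K ↥M γ₀ := ⟨hγ₀, hcard, ⟨ζ, hζ⟩⟩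
  obtain ⟨cK, hcK⟩ := exists_classGrpS_not_norm hζ hp2 (S : Set Nat.Primes) S.finite_toSet hpS ↥M γ₀
    hlayer (fun q hq ι => unramAt_localField_of_unr S M hM q (by simpa using hq) ι)
  refine ⟨(clsAt S K hK hS cK).toAdd, clsAt_invariant S K hK hS cK, ?_⟩
  intro σ hσK hσM x hx h
  obtain ⟨xM, hxM⟩ := exists_incl_eq_prod_of_eq_sum S hKM hK hM hS hcyc cK σ hσK hσM x hx h
  exact hcK xM hxM

theorem toAdd_map_mul_pow {G A : Type*} [CommGroup G] [AddCommGroup A] (f : G →* Multiplicative A)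
    (a b : G) (n : ℕ) : (f (a * b ^ n)).toAdd = (f a).toAdd + n • (f b).toAdd := by
  rw [map_mul, map_pow, toAdd_mul, toAdd_pow]

/-- **(F-field)** `C_S^{G_K}/p` is finite. -/
theorem finite_mod_p_field {p : ℕ} [hp : Fact p.Prime] (hp2 : p ≠ 2)
    (hpS : (⟨p, hp.out⟩ : Nat.Primes) ∈ S) (K : FieldQ) (hK : K.IsUnramifiedOutside S)
    (ζ : ↥K) (hζ : IsPrimitiveRoot ζ p) :
    ∃ T : Finset (CSfull S), ∀ c : CSfull S, (∀ s ∈ K.fixingSubgroup, (CSfull S).ρ s c = c) →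
      ∃ t ∈ T, ∃ c' : CSfull S, (∀ s ∈ K.fixingSubgroup, (CSfull S).ρ s c' = c') ∧ c = t + p • c' := by
  classical
  have hS : S.Nonempty := ⟨_, hpS⟩
  haveI : NumberField ↥K := numberField_of_unr S hK
  have hidx := index_principalUnits_pow_ne_zero hζ hp2 (S : Set Nat.Primes) S.finite_toSet hpS
  set H : Subgroup (Idele ↥K) := Dev.principal ↥K ⊔ Dev.unitsOutside ↥K (S : Set Nat.Primes) ⊔
      (powMonoidHom p : Dev.Idele ↥K →* Dev.Idele ↥K).range with hH
  haveI : H.FiniteIndex := ⟨hidx⟩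
  haveI : Finite (Idele ↥K ⧸ H) := Subgroup.finite_quotient_of_finiteIndex
  letI : Fintype (Idele ↥K ⧸ H) := Fintype.ofFinite _
  refine ⟨Finset.univ.image (fun r : Idele ↥K ⧸ H =>
    (clsAt S K hK hS (QuotientGroup.mk r.out)).toAdd), fun c hc => ?_⟩
  obtain ⟨cK, rfl⟩ := exists_clsAt_eq_of_invariant S K hK hS c hc
  obtain ⟨y, rfl⟩ := QuotientGroup.mk_surjective cK
  obtain ⟨r, hrT, hmem⟩ : ∃ r : Idele ↥K,
      (clsAt S K hK hS (QuotientGroup.mk r)).toAdd ∈ Finset.univ.image (fun r : Idele ↥K ⧸ H =>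
        (clsAt S K hK hS (QuotientGroup.mk r.out)).toAdd) ∧ r⁻¹ * y ∈ H :=
    ⟨(QuotientGroup.mk y : Idele ↥K ⧸ H).out,
      Finset.mem_image.2 ⟨QuotientGroup.mk y, Finset.mem_univ _, rfl⟩, by
        rw [← QuotientGroup.eq]
        exact QuotientGroup.out_eq' _⟩
  rw [hH, Subgroup.mem_sup] at hmem
  obtain ⟨d, hd, z', ⟨z, rfl⟩, hdz⟩ := hmem
  refine ⟨_, hrT, (clsAt S K hK hS (QuotientGroup.mk z)).toAdd, clsAt_invariant S K hK hS _, ?_⟩
  have h1 : (QuotientGroup.mk y : ClassGrpS (↥K) (S : Set Nat.Primes)) =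
      QuotientGroup.mk r * (QuotientGroup.mk z) ^ p := by
    have h2 : y = r * (d * z ^ p) := by
      rw [powMonoidHom_apply] at hdz
      rw [hdz, mul_inv_cancel_left]
    have h3 : (QuotientGroup.mk d : ClassGrpS (↥K) (S : Set Nat.Primes)) = 1 :=
      (QuotientGroup.eq_one_iff d).2 hd
    rw [h2, QuotientGroup.mk_mul, QuotientGroup.mk_mul, h3, one_mul, QuotientGroup.mk_pow]
  exact (congrArg (fun w => (clsAt S K hK hS w).toAdd) h1).trans (toAdd_map_mul_pow _ _ _ _)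

/-! ### Kummer layers inside `ℚ_S` -/

/-- `K(α)` is generated by `α` over `K` -/
theorem adjoin_root_eq_top (K : FieldQ) (α : Qbar) :
    letI : Algebra ↥K ↥(K ⊔ ℚ⟮α⟯) :=
      (IntermediateField.inclusion (le_sup_left : K ≤ K ⊔ ℚ⟮α⟯)).toRingHom.toAlgebra
    IntermediateField.adjoin ↥K {(⟨α, (le_sup_right : ℚ⟮α⟯ ≤ K ⊔ ℚ⟮α⟯)
      (mem_adjoin_simple_self ℚ α)⟩ : ↥(K ⊔ ℚ⟮α⟯))} = ⊤ := by
  letI alg : Algebra ↥K ↥(K ⊔ ℚ⟮α⟯) :=
      (IntermediateField.inclusion (le_sup_left : K ≤ K ⊔ ℚ⟮α⟯)).toRingHom.toAlgebra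
  haveI : IsScalarTower ↥K ↥(K ⊔ ℚ⟮α⟯) Qbar := IsScalarTower.of_algebraMap_eq (fun x => rfl)
  set αM : ↥(K ⊔ ℚ⟮α⟯) := ⟨α, (le_sup_right : ℚ⟮α⟯ ≤ K ⊔ ℚ⟮α⟯) (mem_adjoin_simple_self ℚ α)⟩ with hαM
  set N := IntermediateField.adjoin ↥K {αM} with hN
  have hle : K ⊔ ℚ⟮α⟯ ≤ (N.map (IsScalarTower.toAlgHom ↥K ↥(K ⊔ ℚ⟮α⟯) Qbar)).restrictScalars ℚ := by
    refine sup_le ?_ ?_
    · intro x hx
      exact ⟨algebraMap ↥K ↥(K ⊔ ℚ⟮α⟯) ⟨x, hx⟩, N.algebraMap_mem _, rfl⟩
    · rw [adjoin_simple_le_iff]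
      exact ⟨αM, mem_adjoin_simple_self ↥K αM, rfl⟩
  rw [eq_top_iff]
  intro y _
  obtain ⟨n, hn, hny⟩ := hle y.2
  have : n = y := Subtype.ext hny
  exact this ▸ hn

open Polynomial in
/-- **`K(a^{1/p})/K` is a cyclic layer** for `a ∈ K ∖ K^p`, `ζ_p ∈ K` -/
theorem isCyclicLayer_adjoin_root {p : ℕ} [hp : Fact p.Prime] (K : FieldQ) (ζ : ↥K)
    (hζ : IsPrimitiveRoot ζ p) (a : ↥K) (ha : ∀ b : ↥K, b ^ p ≠ a) (α : Qbar)
    (hα : α ^ p = (a : Qbar)) : IsCyclicLayer p K (K ⊔ ℚ⟮α⟯) le_sup_left := by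
  letI alg : Algebra ↥K ↥(K ⊔ ℚ⟮α⟯) :=
      (IntermediateField.inclusion (le_sup_left : K ≤ K ⊔ ℚ⟮α⟯)).toRingHom.toAlgebra
  have hprim : (primitiveRoots p ↥K).Nonempty := ⟨ζ, (mem_primitiveRoots hp.out.pos).2 hζ⟩
  have H : Irreducible (X ^ p - C a) := X_pow_sub_C_irreducible_of_prime hp.out ha
  set αM : ↥(K ⊔ ℚ⟮α⟯) := ⟨α, (le_sup_right : ℚ⟮α⟯ ≤ K ⊔ ℚ⟮α⟯) (mem_adjoin_simple_self ℚ α)⟩ with hαM
  have hαMp : αM ^ p = algebraMap ↥K ↥(K ⊔ ℚ⟮α⟯) a := Subtype.ext hα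
  have hadj : IntermediateField.adjoin ↥K {αM} = ⊤ := adjoin_root_eq_top K α
  have halg : IsAlgebraic ↥K αM := ⟨X ^ p - C a, X_pow_sub_C_ne_zero hp.out.pos a, by
    rw [aeval_def, eval₂_sub, eval₂_X_pow, eval₂_C, hαMp, sub_self]⟩
  haveI : IsSplittingField ↥K ↥(K ⊔ ℚ⟮α⟯) (X ^ p - C a) := by
    constructor
    · rw [Polynomial.map_sub, Polynomial.map_pow, Polynomial.map_C, Polynomial.map_X]
      exact X_pow_sub_C_splits_of_isPrimitiveRoot
        (hζ.map_of_injective (algebraMap ↥K ↥(K ⊔ ℚ⟮α⟯)).injective) hαMp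
    · rw [eq_top_iff, ← IntermediateField.top_toSubalgebra, ← hadj,
        IntermediateField.adjoin_simple_toSubalgebra_of_isAlgebraic halg]
      apply Algebra.adjoin_mono
      rw [Set.singleton_subset_iff, mem_rootSet_of_ne (X_pow_sub_C_ne_zero hp.out.pos a),
        aeval_def, eval₂_sub, eval₂_X_pow, eval₂_C, hαMp, sub_self]
  haveI : FiniteDimensional ↥K ↥(K ⊔ ℚ⟮α⟯) :=
    Polynomial.IsSplittingField.finiteDimensional ↥(K ⊔ ℚ⟮α⟯) (X ^ p - C a)
  haveI hgal : IsGalois ↥K ↥(K ⊔ ℚ⟮α⟯) :=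
    isGalois_of_isSplittingField_X_pow_sub_C hprim H ↥(K ⊔ ℚ⟮α⟯)
  refine ⟨hgal, ?_⟩
  rw [IsGalois.card_aut_eq_finrank]
  exact finrank_of_isSplittingField_X_pow_sub_C hprim H ↥(K ⊔ ℚ⟮α⟯)

/-- **(E-field)** an invariant of `Gal(ℚ̄/K)` in `CSfull S` which is a norm from every cyclic layer of degree `p`
inside `ℚ_S` is `p` times an invariant. -/
theorem existence_mod_p_field {p : ℕ} [hp : Fact p.Prime] (hp2 : p ≠ 2)
    (hpS : (⟨p, hp.out⟩ : Nat.Primes) ∈ S) (K : FieldQ) (hK : K.IsUnramifiedOutside S)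
    (ζ : ↥K) (hζ : IsPrimitiveRoot ζ p) (c : CSfull S)
    (hc : ∀ s ∈ K.fixingSubgroup, (CSfull S).ρ s c = c)
    (hnorm : ∀ (M : FieldQ) (hKM : K ≤ M), M.IsUnramifiedOutside S → IsCyclicLayer p K M hKM →
      ∃ σ ∈ K.fixingSubgroup, σ ∉ M.fixingSubgroup ∧ ∃ x : CSfull S,
        (∀ s ∈ M.fixingSubgroup, (CSfull S).ρ s x = x) ∧
        c = ∑ i ∈ Finset.range p, (CSfull S).ρ (σ ^ i) x) :
    ∃ c' : CSfull S, (∀ s ∈ K.fixingSubgroup, (CSfull S).ρ s c' = c') ∧ p • c' = c := by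
  classical
  have hS : S.Nonempty := ⟨_, hpS⟩
  haveI : NumberField ↥K := numberField_of_unr S hK
  obtain ⟨cK, hcK⟩ := exists_clsAt_eq_of_invariant S K hK hS c hc
  obtain ⟨c', hc'⟩ := existence_mod_p_classGrpS hζ hp2 (S : Set Nat.Primes) S.finite_toSet hpS cK
    (fun a ha' haunr => by
      -- the Kummer layer `K(a^{1/p})`
      obtain ⟨α, hα⟩ := IsAlgClosed.exists_pow_nat_eq (((a : ↥K) : ↥K) : Qbar) hp.out.pos
      have hane : ∀ b : ↥K, b ^ p ≠ (a : ↥K) := by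
        intro b hb
        have hb0 : b ≠ 0 := by
          rintro rfl
          rw [zero_pow hp.out.ne_zero] at hb
          exact a.ne_zero hb.symm
        exact ha' (SecondIneq.mem_powSubgroup.2 ⟨Units.mk0 b hb0, Units.ext hb⟩)
      have hM : (K ⊔ ℚ⟮α⟯).IsUnramifiedOutside S := by
        refine isUnramifiedOutside_adjoin_root_of_norm hp.out hpS hK (hα ▸ (a : ↥K).2)
          (fun r hr g => ?_)
        obtain ⟨t, ht⟩ := UnrCond.exists_global (q := (r : ℕ)) hp.out.ne_zero a.ne_zero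
          (haunr r (by simpa using hr)
            (((padicEmbedding (r : ℕ)).comp (g : Qbar →ₐ[ℚ] Qbar)).comp K.val))
        refine ⟨(t : Qbar), t.2, ?_⟩
        have h1 : ‖padicEmbedding (r : ℕ) (g (α * (t : Qbar)))‖ ^ p = 1 := by
          rw [← norm_pow, ← map_pow, ← map_pow, mul_pow, hα]
          exact ht
        exact (pow_eq_one_iff_of_nonneg (norm_nonneg _) hp.out.ne_zero).1 h1
      have hcyc := isCyclicLayer_adjoin_root K ζ hζ (a : ↥K) hane α hα
      obtain ⟨σ, hσK, hσM, x, hx, hcx⟩ := hnorm (K ⊔ ℚ⟮α⟯) le_sup_left hM hcyc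
      letI alg : Algebra ↥K ↥(K ⊔ ℚ⟮α⟯) :=
        (IntermediateField.inclusion (le_sup_left : K ≤ K ⊔ ℚ⟮α⟯)).toRingHom.toAlgebra
      have hcyc' := hcyc
      obtain ⟨hgal, hcard⟩ := hcyc'
      haveI := hgal
      haveI : NumberField ↥(K ⊔ ℚ⟮α⟯) := numberField_of_unr S hM
      haveI : Fact (Nat.card (↥(K ⊔ ℚ⟮α⟯) ≃ₐ[↥K] ↥(K ⊔ ℚ⟮α⟯))).Prime :=
        ⟨by rw [hcard]; exact hp.out⟩
      haveI : IsCyclic (↥(K ⊔ ℚ⟮α⟯) ≃ₐ[↥K] ↥(K ⊔ ℚ⟮α⟯)) := isCyclic_of_prime_card rfl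
      obtain ⟨γ₀, hγ₀⟩ := IsCyclic.exists_generator (α := ↥(K ⊔ ℚ⟮α⟯) ≃ₐ[↥K] ↥(K ⊔ ℚ⟮α⟯))
      have hlayer : IsKummerLayer p ↥K ↥(K ⊔ ℚ⟮α⟯) γ₀ := ⟨hγ₀, hcard, ⟨ζ, hζ⟩⟩
      refine ⟨↥(K ⊔ ℚ⟮α⟯), inferInstance, inferInstance, alg, hgal, γ₀,
        ⟨α, (le_sup_right : ℚ⟮α⟯ ≤ K ⊔ ℚ⟮α⟯) (mem_adjoin_simple_self ℚ α)⟩, hlayer,
        Subtype.ext hα, ?_⟩
      exact exists_incl_eq_prod_of_eq_sum S le_sup_left hK hM hS hcyc cK σ hσK hσM x hx
        (hcK.trans hcx))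
  refine ⟨(clsAt S K hK hS c').toAdd, clsAt_invariant S K hK hS c', ?_⟩
  rw [← hcK, ← hc', map_pow, toAdd_pow]

end Layer

end Fermat.Agent.S55lib.ExistP
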