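/-
S55 sprint, block K10 existence mod p (helper1).
**The three field statements of helper3's `LocalUnr/GFieldForm.lean`** (`EFieldStatement`, `NFieldStatement`,
`FFieldStatement`) for `p ∈ S` odd, from `ExistP/FieldForm.lean`.
-/
import Mathlib
import Fermat.Agent.S55lib.ExistP.FieldForm
import Fermat.Agent.S55lib.LocalUnr.GFieldForm

set_option autoImplicit false

namespace Fermat.Agent.S55lib.ExistP

open Fermat.Agent.S55lib Fermat.Agent.S55lib.LocalUnr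

variable {p : ℕ}

theorem isCyclicLayer_of_isFieldLayer {K M : FieldQ} (h : IsFieldLayer p K M) :
    IsCyclicLayer p K M h.le := ⟨h.isGalois, h.card⟩

theorem isFieldLayer_of_isCyclicLayer {K M : FieldQ} (hKM : K ≤ M) (h : IsCyclicLayer p K M hKM) :
    IsFieldLayer p K M := ⟨hKM, h.1, h.2⟩

theorem isPrimitiveRoot_subtype {K : FieldQ} {ζ : Qbar} (hζK : ζ ∈ K) (hζ : IsPrimitiveRoot ζ p) :
    IsPrimitiveRoot (⟨ζ, hζK⟩ : ↥K) p :=
  IsPrimitiveRoot.of_map_of_injective (f := K.val) hζ K.val.injective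

variable [hp : Fact p.Prime] (S : Finset Nat.Primes)

/-- **(E-field)**, helper3's shape -/
theorem eFieldStatement (hp2 : p ≠ 2) (hpS : (⟨p, hp.out⟩ : Nat.Primes) ∈ S) :
    EFieldStatement p S := by
  rintro K hK ⟨ζ, hζK, hζ⟩ c hc hnorm
  refine existence_mod_p_field S hp2 hpS K hK ⟨ζ, hζK⟩ (isPrimitiveRoot_subtype hζK hζ) c hc
    (fun M hKM hM hcyc => ?_)
  obtain ⟨σ, hσK, hσM, x, hx, hcx⟩ := hnorm M hM (isFieldLayer_of_isCyclicLayer hKM hcyc)
  exact ⟨σ, hσK, hσM, x, hx, hcx⟩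

/-- **(N-field)**, helper3's shape -/
theorem nFieldStatement (hp2 : p ≠ 2) (hpS : (⟨p, hp.out⟩ : Nat.Primes) ∈ S) :
    NFieldStatement p S := by
  rintro K hK ⟨ζ, hζK, hζ⟩ M hM hlayer
  obtain ⟨c, hc, hnot⟩ := not_norm_field S hp2 hpS K hK ⟨ζ, hζK⟩ (isPrimitiveRoot_subtype hζK hζ)
    M hlayer.le hM (isCyclicLayer_of_isFieldLayer hlayer)
  refine ⟨c, hc, fun σ hσK hσM hN => ?_⟩
  obtain ⟨x, hx, hcx⟩ := hN
  exact hnot σ hσK hσM x hx hcx

/-- **(F-field)**, helper3's shape -/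
theorem fFieldStatement (hp2 : p ≠ 2) (hpS : (⟨p, hp.out⟩ : Nat.Primes) ∈ S) :
    FFieldStatement p S := by
  rintro K hK ⟨ζ, hζK, hζ⟩
  exact finite_mod_p_field S hp2 hpS K hK ⟨ζ, hζK⟩ (isPrimitiveRoot_subtype hζK hζ)

end Fermat.Agent.S55lib.ExistP
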