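/-
S55 sprint, block K10 existence mod p (helper1).
**Global (CF4) for `(G_ℚ, unrBasis S, CSfull S)`, `p ∈ S` odd**: helper3's `cf4_inj_global`, `cf4_surj_global`
(`LocalUnr/GCF4.lean`) with the three field statements discharged by `ExistP/FieldFormG.lean`.
Remaining hypotheses: `hcf1` (= `CFData.cf1_inj`) and, for surjectivity, `hT` (`|H²(V, C_S)[p]| ≤ p`).
-/
import Mathlib
import Fermat.Agent.S55lib.ExistP.FieldFormG
import Fermat.Agent.S55lib.LocalUnr.GCF4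

set_option autoImplicit false

namespace Fermat.Agent.S55lib.ExistP

open groupCohomology Fermat.Agent.S55lib Fermat.Agent.S55lib.Recip Fermat.Agent.S55lib.CFDual
  Fermat.Agent.S55lib.LocalUnr

variable {S : Finset Nat.Primes} {p : ℕ} [hp : Fact p.Prime]

/-- **global (CF4), injectivity** -/
theorem cf4_inj_global_of_cf1 (hp2 : p ≠ 2) (hpS : (⟨p, hp.out⟩ : Nat.Primes) ∈ S)
    (U₀ : Subgroup GQ) {ζ : Qbar}
    (hζ : IsPrimitiveRoot ζ p) (hU₀ : ∀ v ∈ U₀, v ζ = ζ)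
    (hcf1 : ∀ W : Subgroup GQ, (unrBasis S).IsOpen W → W ≤ U₀ →
      ∀ x : Hsm ((unrBasis S).comap W.subtype) (Rep.res W.subtype (CSfull S)) 1, p • x = 0 → x = 0)
    (V : Subgroup GQ) (hV : (unrBasis S).IsOpen V) (hVU : V ≤ U₀)
    (c : CSfull S) (hc : ∀ v ∈ V, (CSfull S).ρ v c = c)
    (h : ∀ χ : Hsm ((unrBasis S).comap V.subtype) (trivFp p V) 1,
      (Csm.map ((unrBasis S).comap V.subtype) (constHom V (CSfull S) c hc)).mapH 2
        (bock p ((unrBasis S).comap V.subtype) χ) = 0) :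
    ∃ c' : CSfull S, (∀ v ∈ V, (CSfull S).ρ v c' = c') ∧ p • c' = c :=
  cf4_inj_global (eFieldStatement S hp2 hpS) U₀ hζ hU₀ hcf1 V hV hVU c hc h

/-- **global (CF4), surjectivity** -/
theorem cf4_surj_global_of_cf1 (hp2 : p ≠ 2) (hpS : (⟨p, hp.out⟩ : Nat.Primes) ∈ S)
    (U₀ : Subgroup GQ)
    {ζ : Qbar} (hζ : IsPrimitiveRoot ζ p) (hU₀ : ∀ v ∈ U₀, v ζ = ζ)
    (hcf1 : ∀ W : Subgroup GQ, (unrBasis S).IsOpen W → W ≤ U₀ →
      ∀ x : Hsm ((unrBasis S).comap W.subtype) (Rep.res W.subtype (CSfull S)) 1, p • x = 0 → x = 0)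
    (hT : ∀ V : Subgroup GQ, (unrBasis S).IsOpen V → V ≤ U₀ →
      ∀ A : Finset (Hsm ((unrBasis S).comap V.subtype) (Rep.res V.subtype (CSfull S)) 2),
        (∀ y ∈ A, p • y = 0) → A.card ≤ p)
    (V : Subgroup GQ) (hV : (unrBasis S).IsOpen V) (hVU : V ≤ U₀)
    (φ : Hsm ((unrBasis S).comap V.subtype) (trivFp p V) 1 →+
      Hsm ((unrBasis S).comap V.subtype) (Rep.res V.subtype (CSfull S)) 2) :
    ∃ (c : CSfull S) (hc : ∀ v ∈ V, (CSfull S).ρ v c = c), ∀ χ,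
      (Csm.map ((unrBasis S).comap V.subtype) (constHom V (CSfull S) c hc)).mapH 2
        (bock p ((unrBasis S).comap V.subtype) χ) = φ χ :=
  cf4_surj_global (nFieldStatement S hp2 hpS) (fFieldStatement S hp2 hpS) U₀ hζ hU₀ hcf1 hT V hV hVU φ

end Fermat.Agent.S55lib.ExistP
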