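/-
S55 sprint, block K10 existence mod p (helper1).
**T6**: if the `S`-unit `a ∉ K^p` is "ramified" at a place `v₀ ∈ S` not above `p`
(`a ∉ U_{v₀} K_{v₀}^p`), then not all units at `v₀` lie in the norm group `N_a`.
-/
import Mathlib
import Fermat.Agent.S55lib.ExistP.Inject

set_option autoImplicit false

namespace Fermat.Agent.S55lib.ExistP

open scoped Classical
open Fermat.Agent.S55lib.SecondIneq

variable {Kx : Type*} [CommGroup Kx] {ι : Type*} {Kv : ι → Type*} [∀ v, CommGroup (Kv v)]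
variable {U : ∀ v, Subgroup (Kv v)} {loc : ∀ v, Kx →* Kv v} {p : ℕ} {Sp : Finset ι} {r : ℕ}

/-- the local conditions: `p`-th powers, except `U K^p` at `v₀` -/
noncomputable def ramCond (U : ∀ v, Subgroup (Kv v)) (p : ℕ) (v₀ : ι) (v : ι) : Subgroup (Kv v) :=
  if v = v₀ then U v ⊔ powSubgroup (Kv v) p else powSubgroup (Kv v) p

theorem ramCond_same (U : ∀ v, Subgroup (Kv v)) (p : ℕ) (v₀ : ι) :
    ramCond U p v₀ v₀ = U v₀ ⊔ powSubgroup (Kv v₀) p := by
  rw [ramCond, if_pos rfl]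

theorem ramCond_ne (U : ∀ v, Subgroup (Kv v)) (p : ℕ) {v₀ v : ι} (h : v ≠ v₀) :
    ramCond U p v₀ v = powSubgroup (Kv v) p := by
  rw [ramCond, if_neg h]

theorem pow_le_ramCond (U : ∀ v, Subgroup (Kv v)) (p : ℕ) (v₀ v : ι) :
    powSubgroup (Kv v) p ≤ ramCond U p v₀ v := by
  rw [ramCond]
  split_ifs
  · exact le_sup_right
  · exact le_rfl

namespace ExPData

/-- if all units at `v₀` are in `N_a`, the conditions `ramCond` cut out a subgroup inside `N_a` -/
theorem condS_ramCond_le [hp : Fact p.Prime] (D : ExPData U loc p Sp r) (S : Finset ι)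
    (hS : Sp ⊆ S) (h4 : idele U ≤ principal loc ⊔ ideleS U S) (a : Kx)
    (haS : a ∈ unitsS U loc S) (ha' : a ∉ powSubgroup Kx p) (T : Finset ι)
    (hT : IsAuxSet U loc p r S a T) (v₀ : ι) (hv₀S : v₀ ∈ S)
    (hall : ∀ u ∈ U v₀, Pi.mulSingle v₀ u ∈ normGroup U loc p Sp a) :
    condS U (S ∪ T) S (ramCond U p v₀) ⊔ principal loc = normGroup U loc p Sp a := by
  obtain ⟨hN, -⟩ := D.normGroup_eq S hS h4 a haS ha' T hT
  apply le_antisymm
  · refine sup_le ?_ (by rw [normGroup]; exact le_sup_left)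
    intro x hx
    have hx0 := hx.2 v₀ hv₀S
    rw [ramCond_same] at hx0
    obtain ⟨u, hu, t, ht, hut⟩ := Subgroup.mem_sup.mp hx0
    have hx' : x * (Pi.mulSingle v₀ u)⁻¹ ∈ condS U (S ∪ T) S (fun v => powSubgroup (Kv v) p) := by
      refine ⟨fun w hw => ?_, fun w hw => ?_⟩
      · have hwv : w ≠ v₀ := fun h => hw (h ▸ Finset.mem_union_left T hv₀S)
        rw [Pi.mul_apply, Pi.inv_apply, Pi.mulSingle_eq_of_ne hwv, inv_one, mul_one]
        exact hx.1 w hw
      · by_cases hwv : w = v₀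
        · subst hwv
          rw [Pi.mul_apply, Pi.inv_apply, Pi.mulSingle_eq_same, ← hut, mul_comm u t,
            mul_inv_cancel_right]
          exact ht
        · rw [Pi.mul_apply, Pi.inv_apply, Pi.mulSingle_eq_of_ne hwv, inv_one, mul_one]
          have := hx.2 w hw
          rwa [ramCond_ne U p hwv] at this
    have h2 : x = x * (Pi.mulSingle v₀ u)⁻¹ * Pi.mulSingle v₀ u := by
      rw [inv_mul_cancel_right]
    rw [h2]
    refine Subgroup.mul_mem _ ?_ (hall u hu)
    rw [hN]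
    exact Subgroup.mem_sup_left hx'
  · rw [hN]
    refine sup_le_sup_right ?_ _
    intro x hx
    exact ⟨hx.1, fun w hw => pow_le_ramCond U p v₀ w (hx.2 w hw)⟩

/-- the product of the indices of the conditions `ramCond` -/
theorem prod_index_ramCond [hp : Fact p.Prime] (D : ExPData U loc p Sp r) (S : Finset ι)
    (hS : Sp ⊆ S) (v₀ : ι) (hv₀S : v₀ ∈ S) (hv₀ : v₀ ∉ Sp) :
    p * ∏ v ∈ S, (ramCond U p v₀ v).index = p ^ (2 * (S.card + r)) := by
  have hX : ∏ v ∈ S.erase v₀, (ramCond U p v₀ v).index =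
      ∏ v ∈ S.erase v₀, (powSubgroup (Kv v) p).index :=
    Finset.prod_congr rfl fun v hv => by rw [ramCond_ne U p (Finset.ne_of_mem_erase hv)]
  have h1 := Finset.mul_prod_erase S (fun v => (powSubgroup (Kv v) p).index) hv₀S
  rw [D.prod_index S hS] at h1
  rw [← Finset.mul_prod_erase S _ hv₀S, ramCond_same, D.index_sup_pow v₀ hv₀, hX, ← h1,
    D.hidx v₀ hv₀, pow_two, mul_assoc]

/-- Lemma A: a new global element, not a `p`-th power, with controlled local behaviour -/
theorem exists_unitsCond_not_pow [hp : Fact p.Prime] (D : ExPData U loc p Sp r) (S : Finset ι)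
    (hS : Sp ⊆ S) (h4 : idele U ≤ principal loc ⊔ ideleS U S) (a : Kx)
    (haS : a ∈ unitsS U loc S) (ha' : a ∉ powSubgroup Kx p) (T : Finset ι)
    (hT : IsAuxSet U loc p r S a T) (v₀ : ι) (hv₀S : v₀ ∈ S) (hv₀ : v₀ ∉ Sp)
    (hall : ∀ u ∈ U v₀, Pi.mulSingle v₀ u ∈ normGroup U loc p Sp a) :
    ∃ x ∈ unitsCond U loc (S ∪ T) S (ramCond U p v₀), x ∉ powSubgroup Kx p := by
  have hp0 : 0 < p := hp.out.pos
  obtain ⟨-, hNidx⟩ := D.normGroup_eq S hS h4 a haS ha' T hT
  have hB := D.condS_ramCond_le S hS h4 a haS ha' T hT v₀ hv₀S hall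
  have h4' : idele U ≤ principal loc ⊔ ideleS U (S ∪ T) :=
    h4.trans (sup_le_sup_left (ideleS_mono U Finset.subset_union_left) _)
  have hcount := index_condS_sup_principal U loc D.hloc D.hinj S (S ∪ T) Finset.subset_union_left
    h4' (ramCond U p v₀)
  rw [hB, hNidx] at hcount
  set E := unitsS U loc (S ∪ T) with hE
  set C := unitsCond U loc (S ∪ T) S (ramCond U p v₀) with hC
  set Ep := E.map (powMonoidHom p) with hEp
  have hCE : C ≤ E := fun x hx => hx.1
  have hEpC : Ep ≤ C := by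
    rintro x ⟨c, hc, rfl⟩
    refine ⟨Subgroup.pow_mem _ hc p, fun v _ => pow_le_ramCond U p v₀ v ?_⟩
    rw [powMonoidHom_apply, map_pow]
    exact mem_powSubgroup.mpr ⟨_, rfl⟩
  have hEidx : Ep.relIndex E = p ^ ((S ∪ T).card + r) :=
    D.hunits (S ∪ T) (hS.trans Finset.subset_union_left)
  have hcard : (S ∪ T).card + r + 1 = 2 * (S.card + r) := by
    rw [Finset.card_union_of_disjoint hT.disj]
    have := hT.card
    omega
  have hprod := D.prod_index_ramCond S hS v₀ hv₀S hv₀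
  rw [← hcount, ← hcard, pow_succ] at hprod
  have hmul := Subgroup.relIndex_mul_relIndex Ep C E hEpC hCE
  rw [hEidx] at hmul
  -- `(C : Ep) = p`
  have hCp : Ep.relIndex C = p := by
    have h1 : p * (p * C.relIndex E) = p * (Ep.relIndex C * C.relIndex E) := by
      rw [hmul, hprod, mul_comm]
    have h2 := Nat.eq_of_mul_eq_mul_left hp0 h1
    have hpos : 0 < C.relIndex E := by
      rcases Nat.eq_zero_or_pos (C.relIndex E) with h0 | h0
      · rw [h0, mul_zero] at hmul
        exact absurd hmul.symm (pow_ne_zero _ hp.out.ne_zero)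
      · exact h0
    exact (Nat.eq_of_mul_eq_mul_right hpos h2).symm
  have hnle : ¬ C ≤ Ep := by
    intro h
    rw [← Subgroup.relIndex_eq_one, hCp] at h
    exact hp.out.one_lt.ne' h
  obtain ⟨x, hxC, hxEp⟩ := SetLike.not_le_iff_exists.mp hnle
  refine ⟨x, hxC, fun hx => hxEp ?_⟩
  obtain ⟨c, rfl⟩ := mem_powSubgroup.mp hx
  exact ⟨c, D.mem_unitsS_of_pow_mem (S ∪ T) hxC.1, rfl⟩

/-- Lemma B: the Kummer extension generated by such an element would violate the first
inequality -/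
theorem idele_le_of_ramified [hp : Fact p.Prime] (D : ExPData U loc p Sp r) (S : Finset ι)
    (hS : Sp ⊆ S) (h4 : idele U ≤ principal loc ⊔ ideleS U S) (a : Kx)
    (haS : a ∈ unitsS U loc S) (T : Finset ι)
    (hT : IsAuxSet U loc p r S a T) (v₀ : ι) (hv₀S : v₀ ∈ S) (hv₀ : v₀ ∉ Sp)
    (hram : loc v₀ a ∉ U v₀ ⊔ powSubgroup (Kv v₀) p)
    (x : Kx) (hx : x ∈ unitsCond U loc (S ∪ T) S (ramCond U p v₀)) :
    idele U ≤ principal loc ⊔ localCond U (nrmMin U loc p Sp x) := by
  intro y hy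
  obtain ⟨y₀, ⟨c, rfl⟩, z, hz, rfl⟩ := Subgroup.mem_sup.mp (h4 hy)
  obtain ⟨n, hn⟩ := D.hcyc' v₀ hv₀ (loc v₀ a) hram (z v₀)
  -- the idele `z' = z / a^n`
  have hz'T : ∀ w ∈ T, (z / MonoidHom.pi loc (a ^ n)) w ∈ U w := by
    intro w hw
    have hwS : w ∉ S := fun h => Finset.disjoint_left.mp hT.disj h hw
    exact Subgroup.div_mem _ (hz w hwS) (Subgroup.pow_mem _ haS n w hwS)
  obtain ⟨u, hu, huT⟩ := hT.surj (z / MonoidHom.pi loc (a ^ n)) hz'T
  obtain ⟨m, hm⟩ := D.hcyc' v₀ hv₀ (loc v₀ a) hram (loc v₀ u)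
  have hu' : u / a ^ m ∈ unitsS U loc S := Subgroup.div_mem _ hu (Subgroup.pow_mem _ haS m)
  rw [Subgroup.mem_sup]
  refine ⟨MonoidHom.pi loc (c * a ^ n * (u / a ^ m)), ⟨_, rfl⟩,
    z / MonoidHom.pi loc (a ^ n) / MonoidHom.pi loc (u / a ^ m), ?_, ?_⟩
  · rw [mem_localCond]
    refine ⟨?_, fun w => ?_⟩
    · exact Subgroup.div_mem _ (Subgroup.div_mem _ (ideleS_le_idele U S hz)
        (principal_le_idele D.hloc ⟨_, rfl⟩)) (principal_le_idele D.hloc ⟨_, rfl⟩)
    · simp only [Pi.div_apply, MonoidHom.pi_apply]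
      by_cases hwS : w ∈ S
      · by_cases hwv : w = v₀
        · subst hwv
          have hx0 := hx.2 w hwS
          rw [ramCond_same] at hx0
          apply sup_le_nrmMin U loc p Sp x w hv₀ hx0
          rw [map_div, map_pow, map_pow]
          exact Subgroup.div_mem _ hn hm
        · have hx0 := hx.2 w hwS
          rw [ramCond_ne U p hwv] at hx0
          rw [nrmMin_eq_top U loc p Sp x w hx0]; trivial
      · by_cases hwT : w ∈ T
        · apply pow_le_nrmMin U loc p Sp x w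
          have h1 := huT w hwT
          simp only [Pi.div_apply, MonoidHom.pi_apply] at h1
          have h2 : z w / loc w (a ^ n) / loc w (u / a ^ m) =
              z w / loc w (a ^ n) / loc w u * loc w a ^ m := by
            simp only [div_eq_mul_inv, mul_inv_rev, inv_inv, map_mul, map_inv, map_pow]
            ac_rfl
          rw [h2]
          exact Subgroup.mul_mem _ h1 (Subgroup.pow_mem _ (hT.pow w hwT) m)
        · have hw' : w ∉ S ∪ T := by simp [hwS, hwT]
          apply units_le_nrmMin U loc p Sp x w (fun h => hwS (hS h))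
            (le_sup_left (a := U w) (hx.1 w hw'))
          exact Subgroup.div_mem _ (Subgroup.div_mem _ (hz w hwS)
            (Subgroup.pow_mem _ haS n w hwS)) (hu' w hwS)
  · rw [map_mul, map_mul, div_div, mul_assoc ((MonoidHom.pi loc) c), mul_assoc ((MonoidHom.pi loc) c),
      mul_div_cancel]

/-- **T6**: ramified at `v₀` ⇒ some unit at `v₀` is not in the norm group. -/
theorem exists_unit_not_mem_normGroup [hp : Fact p.Prime] (D : ExPData U loc p Sp r)
    (S : Finset ι) (hS : Sp ⊆ S) (h4 : idele U ≤ principal loc ⊔ ideleS U S)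
    (hSEP : SEP U loc p S) (a : Kx) (haS : a ∈ unitsS U loc S) (ha' : a ∉ powSubgroup Kx p)
    (v₀ : ι) (hv₀S : v₀ ∈ S) (hv₀ : v₀ ∉ Sp)
    (hram : loc v₀ a ∉ U v₀ ⊔ powSubgroup (Kv v₀) p) :
    ∃ u ∈ U v₀, Pi.mulSingle v₀ u ∉ normGroup U loc p Sp a := by
  by_contra hcon
  simp only [not_exists, not_and, not_not] at hcon
  obtain ⟨T, hT⟩ := D.exists_auxSet S hS hSEP a haS ha'
  obtain ⟨x, hxC, hxp⟩ := D.exists_unitsCond_not_pow S hS h4 a haS ha' T hT v₀ hv₀S hv₀ hcon
  exact D.FI x hxp (D.idele_le_of_ramified S hS h4 a haS T hT v₀ hv₀S hv₀ hram x hxC)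

end ExPData

end Fermat.Agent.S55lib.ExistP
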